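import Fermat.Agent.S19.Alg.RL

set_option autoImplicit false
set_option linter.unusedSectionVars false

open scoped TensorProduct

namespace Fermat.Agent.S19Lib

variable {ℓ : ℕ} [Fact ℓ.Prime] {G : Type} [AddCommGroup G] [Finite G] {act : GalQ → G → G}
  {H : Subalgebra (RL ℓ) (G → QB)}

/-! ### (ACT) `Alg/Act.lean` -/

theorem IsOrd.act_add (h : IsOrd ℓ G act H) (σ : GalQ) (x y : G) :
    act σ (x + y) = act σ x + act σ y := by
  apply h.sep
  intro f hf
  obtain ⟨n, a, b, ha, hb, hab⟩ := h.comul f hf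
  rw [h.equiv f hf, hab, hab, map_sum]
  apply Finset.sum_congr rfl
  intro i _
  rw [map_mul, h.equiv _ (ha i), h.equiv _ (hb i)]

theorem IsOrd.act_zero (h : IsOrd ℓ G act H) (σ : GalQ) : act σ 0 = 0 := by
  have := h.act_add σ 0 0
  rw [add_zero] at this
  exact left_eq_add.mp this

theorem IsOrd.act_bijective (h : IsOrd ℓ G act H) (σ : GalQ) : Function.Bijective (act σ) := by
  apply Function.Injective.bijective_of_finite
  intro x y hxy
  apply h.sep
  intro f hf
  apply σ.injective
  rw [← h.equiv f hf, ← h.equiv f hf, hxy]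

theorem IsOrd.isIntegral_apply (h : IsOrd ℓ G act H) (f : G → QB) (hf : f ∈ H) (x : G) :
    IsIntegral (RL ℓ) (f x) := by
  have h1 : IsIntegral (RL ℓ) f := IsIntegral.of_mem_of_fg H h.fg f hf
  exact h1.map (Pi.evalAlgHom (RL ℓ) (fun _ : G => QB) x)

theorem IsOrd.finite (h : IsOrd ℓ G act H) : Module.Finite (RL ℓ) H :=
  Module.Finite.of_fg h.fg

theorem RL_isTorsionFree_QB (ℓ : ℕ) : Module.IsTorsionFree (RL ℓ) QB := by
  have : FaithfulSMul (RL ℓ) QB := (faithfulSMul_iff_algebraMap_injective _ _).mpr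
    (RL_algebraMap_injective ℓ)
  infer_instance

theorem IsOrd.free (h : IsOrd ℓ G act H) : Module.Free (RL ℓ) H := by
  have := RL_isPrincipalIdealRing ℓ
  have := h.finite
  have := RL_isTorsionFree_QB ℓ
  have : Module.IsTorsionFree (RL ℓ) (G → QB) := inferInstance
  have : Module.IsTorsionFree (RL ℓ) (Subalgebra.toSubmodule H) := inferInstance
  exact Module.free_of_finite_type_torsion_free' (R := RL ℓ) (M := Subalgebra.toSubmodule H)

end Fermat.Agent.S19Lib
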