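import Fermat.Agent.S19.Alg.Defs

/-!
# S19 algebra side: the conditions `comul` and `equiv` as subalgebras
-/

set_option autoImplicit false
set_option linter.unusedSectionVars false

open scoped TensorProduct

namespace Fermat.Agent.S19Lib

section abstract

variable {R K G : Type} [CommRing R] [Field K] [Algebra R K] [AddCommGroup G]
variable (H : Subalgebra R (G → K))

/-- functions `F` on `X × Y` of the shape `∑ a_i(x) b_i(y)` -/
theorem COM_mem_range_iff (F : G × G → K) :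
    (∃ (n : ℕ) (a b : Fin n → (G → K)), (∀ i, a i ∈ H) ∧ (∀ i, b i ∈ H) ∧
      ∀ x y, F (x, y) = ∑ i, a i x * b i y) ↔ F ∈ (mu2 H).range := by
  constructor
  · rintro ⟨n, a, b, ha, hb, hab⟩
    refine ⟨∑ i, (⟨a i, ha i⟩ : H) ⊗ₜ[R] (⟨b i, hb i⟩ : H), ?_⟩
    funext p
    simp only [map_sum, Finset.sum_apply]
    exact (hab p.1 p.2).symm
  · rintro ⟨t, rfl⟩
    obtain ⟨S, rfl⟩ := TensorProduct.exists_finset t
    refine ⟨S.card, fun i => ((S.equivFin.symm i).1.1 : G → K),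
      fun i => ((S.equivFin.symm i).1.2 : G → K), fun i => (S.equivFin.symm i).1.1.2,
      fun i => (S.equivFin.symm i).1.2.2, ?_⟩
    intro x y
    have h1 : (mu2 H).toRingHom (∑ i ∈ S, i.1 ⊗ₜ[R] i.2) (x, y)
        = ∑ i ∈ S, (i.1 : G → K) x * (i.2 : G → K) y := by
      show mu2 H (∑ i ∈ S, i.1 ⊗ₜ[R] i.2) (x, y) = _
      rw [map_sum, Finset.sum_apply]
      apply Finset.sum_congr rfl
      intro i _
      rw [mu2_tmul]
    rw [h1, ← Finset.sum_coe_sort S (fun i => (i.1 : G → K) x * (i.2 : G → K) y)]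
    exact (Equiv.sum_comp S.equivFin.symm
      (fun i : S => ((i : H × H).1 : G → K) x * ((i : H × H).2 : G → K) y)).symm

/-- the subalgebra of the functions `h` with `h(x + y) = ∑ a_i(x) b_i(y)`, `a_i, b_i ∈ H` -/
noncomputable def comulSub : Subalgebra R (G → K) :=
  (mu2 H).range.comap (pre R K (fun p : G × G => p.1 + p.2))

theorem mem_comulSub_iff (h : G → K) :
    h ∈ comulSub H ↔ ∃ (n : ℕ) (a b : Fin n → (G → K)), (∀ i, a i ∈ H) ∧ (∀ i, b i ∈ H) ∧
      ∀ x y, h (x + y) = ∑ i, a i x * b i y := by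
  rw [comulSub, Subalgebra.mem_comap, ← COM_mem_range_iff]
  rfl

theorem mu2_range_mono {H H' : Subalgebra R (G → K)} (hle : H ≤ H') :
    (mu2 H).range ≤ (mu2 H').range := by
  intro F hF
  rw [← COM_mem_range_iff] at hF ⊢
  obtain ⟨n, a, b, ha, hb, hab⟩ := hF
  exact ⟨n, a, b, fun i => hle (ha i), fun i => hle (hb i), hab⟩

theorem comulSub_mono {H H' : Subalgebra R (G → K)} (hle : H ≤ H') :
    comulSub H ≤ comulSub H' :=
  fun _ hh => mu2_range_mono hle hh

end abstract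

/-- the subalgebra of the Galois equivariant functions -/
def eqvSub (ℓ : ℕ) {G : Type} (act : GalQ → G → G) : Subalgebra (RL ℓ) (G → QB) where
  carrier := {h | ∀ (σ : GalQ) (x : G), h (act σ x) = σ (h x)}
  mul_mem' := by
    intro a b ha hb σ x
    rw [Pi.mul_apply, Pi.mul_apply, ha, hb, map_mul]
  add_mem' := by
    intro a b ha hb σ x
    rw [Pi.add_apply, Pi.add_apply, ha, hb, map_add]
  algebraMap_mem' := by
    intro r σ x
    show algebraMap ℚ QB (r : ℚ) = σ (algebraMap ℚ QB (r : ℚ))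
    rw [σ.commutes]

theorem mem_eqvSub_iff (ℓ : ℕ) {G : Type} (act : GalQ → G → G) (h : G → QB) :
    h ∈ eqvSub ℓ act ↔ ∀ (σ : GalQ) (x : G), h (act σ x) = σ (h x) := Iff.rfl

/-- `IsOrd` in terms of subalgebras -/
theorem isOrd_iff (ℓ : ℕ) (G : Type) [AddCommGroup G] (act : GalQ → G → G)
    (H : Subalgebra (RL ℓ) (G → QB)) :
    IsOrd ℓ G act H ↔ H ≤ eqvSub ℓ act ∧ (Subalgebra.toSubmodule H).FG ∧ H ≤ comulSub H ∧
      ∀ x y : G, (∀ h ∈ H, h x = h y) → x = y := by
  constructor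
  · intro h
    exact ⟨fun f hf => h.equiv f hf, h.fg, fun f hf => (mem_comulSub_iff H f).mpr (h.comul f hf),
      h.sep⟩
  · rintro ⟨h1, h2, h3, h4⟩
    exact ⟨fun f hf => h1 hf, h2, fun f hf => (mem_comulSub_iff H f).mp (h3 hf), h4⟩

end Fermat.Agent.S19Lib
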