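import Fermat.Agent.S19.Alg.CloSub
import Fermat.Agent.S19.Alg.Com

set_option autoImplicit false
set_option linter.unusedSectionVars false

open scoped TensorProduct

namespace Fermat.Agent.S19Lib

variable {ℓ : ℕ} [Fact ℓ.Prime] {G G' : Type} [AddCommGroup G] [AddCommGroup G']
  {act : GalQ → G → G} {act' : GalQ → G' → G'}

/-! ### (C2) `Alg/CloProd.lean` -/

theorem HasOrd.prod (h : HasOrd ℓ G act) (h' : HasOrd ℓ G' act') :
    HasOrd ℓ (G × G') (fun σ p => (act σ p.1, act' σ p.2)) := by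
  obtain ⟨H, hH⟩ := h
  obtain ⟨H', hH'⟩ := h'
  set H1 : Subalgebra (RL ℓ) (G × G' → QB) := H.map (pre (RL ℓ) QB Prod.fst) with hH1
  set H2 : Subalgebra (RL ℓ) (G × G' → QB) := H'.map (pre (RL ℓ) QB Prod.snd) with hH2
  refine ⟨H1 ⊔ H2, ?_⟩
  rw [isOrd_iff]
  refine ⟨sup_le ?_ ?_, ?_, sup_le ?_ ?_, ?_⟩
  · rintro _ ⟨g, hg, rfl⟩ σ x
    exact hH.equiv g hg σ x.1
  · rintro _ ⟨g, hg, rfl⟩ σ x
    exact hH'.equiv g hg σ x.2
  · rw [← Subalgebra.mul_toSubmodule]
    apply Submodule.FG.mul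
    · rw [hH1, Subalgebra.map_toSubmodule]
      exact hH.fg.map _
    · rw [hH2, Subalgebra.map_toSubmodule]
      exact hH'.fg.map _
  · rintro _ ⟨g, hg, rfl⟩
    show _ ∈ comulSub _
    rw [mem_comulSub_iff]
    obtain ⟨n, a, b, ha, hb, hab⟩ := hH.comul g hg
    refine ⟨n, fun i => pre (RL ℓ) QB Prod.fst (a i), fun i => pre (RL ℓ) QB Prod.fst (b i),
      fun i => le_sup_left (a := H1) ⟨a i, ha i, rfl⟩,
      fun i => le_sup_left (a := H1) ⟨b i, hb i, rfl⟩, ?_⟩
    intro x y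
    exact hab x.1 y.1
  · rintro _ ⟨g, hg, rfl⟩
    show _ ∈ comulSub _
    rw [mem_comulSub_iff]
    obtain ⟨n, a, b, ha, hb, hab⟩ := hH'.comul g hg
    refine ⟨n, fun i => pre (RL ℓ) QB Prod.snd (a i), fun i => pre (RL ℓ) QB Prod.snd (b i),
      fun i => le_sup_right (b := H2) ⟨a i, ha i, rfl⟩,
      fun i => le_sup_right (b := H2) ⟨b i, hb i, rfl⟩, ?_⟩
    intro x y
    exact hab x.2 y.2
  · intro x y hxy
    apply Prod.ext
    · apply hH.sep
      intro g hg
      exact hxy _ (le_sup_left (a := H1) ⟨g, hg, rfl⟩)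
    · apply hH'.sep
      intro g hg
      exact hxy _ (le_sup_right (b := H2) ⟨g, hg, rfl⟩)

/-- the trivial group -/
theorem HasOrd.of_subsingleton [Subsingleton G] : HasOrd ℓ G act := by
  refine ⟨⊥, ?_⟩
  rw [isOrd_iff]
  refine ⟨bot_le, ?_, bot_le, fun x y _ => Subsingleton.elim x y⟩
  rw [Algebra.toSubmodule_bot, Submodule.one_eq_span]
  exact Submodule.fg_span (Set.finite_singleton _)

theorem HasOrd.pi (h : HasOrd ℓ G act) (s : ℕ) :
    HasOrd ℓ (Fin s → G) (fun σ v i => act σ (v i)) := by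
  induction s with
  | zero => exact HasOrd.of_subsingleton
  | succ s ih =>
    let f : (Fin (s + 1) → G) →+ G × (Fin s → G) :=
      { toFun := fun v => (v 0, fun i => v i.succ)
        map_zero' := rfl
        map_add' := fun _ _ => rfl }
    refine HasOrd.of_injective f ?_ ?_ (h.prod ih)
    · intro v w hvw
      funext i
      refine Fin.cases ?_ (fun j => ?_) i
      · exact congrArg Prod.fst hvw
      · exact congrFun (congrArg Prod.snd hvw) j
    · intro σ v
      rfl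

end Fermat.Agent.S19Lib
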