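import Fermat.Agent.S19.Alg.CloQuotComul

set_option autoImplicit false
set_option linter.unusedSectionVars false

open scoped TensorProduct

namespace Fermat.Agent.S19Lib

variable {ℓ : ℕ} [Fact ℓ.Prime] {G G' : Type} [AddCommGroup G] [AddCommGroup G']
  {act : GalQ → G → G} {act' : GalQ → G' → G'}

/-- (C3c) `CloQuot.lean` -/
theorem HasOrd.of_surjective [Finite G] (f : G →+ G') (hf : Function.Surjective f)
    (hact : ∀ σ x, f (act σ x) = act' σ (f x)) (h : HasOrd ℓ G act) : HasOrd ℓ G' act' := by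
  obtain ⟨H, hH⟩ := h
  refine ⟨H.comap (pre (RL ℓ) QB f), ?_, hH.comap_fg f hf, hH.comap_comul f hf hact,
    hH.comap_sep f hf hact⟩
  intro g hg σ z
  obtain ⟨x, rfl⟩ := hf z
  rw [← hact]
  exact hH.equiv _ hg σ x

end Fermat.Agent.S19Lib
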