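import Fermat.Agent.S19.Alg.CloQuotSep

set_option autoImplicit false
set_option linter.unusedSectionVars false

open scoped TensorProduct

namespace Fermat.Agent.S19Lib

variable {ℓ : ℕ} [Fact ℓ.Prime] {G G' : Type} [AddCommGroup G] [AddCommGroup G']
  {act : GalQ → G → G} {act' : GalQ → G' → G'}

theorem pre_injective_of_surjective (f : G → G') (hf : Function.Surjective f) :
    Function.Injective (pre (RL ℓ) QB f) := by
  intro a b hab
  funext z
  obtain ⟨x, rfl⟩ := hf z
  exact congrFun hab x

theorem IsOrd.comap_fg {H : Subalgebra (RL ℓ) (G → QB)} (h : IsOrd ℓ G act H)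
    (f : G →+ G') (hf : Function.Surjective f) :
    (Subalgebra.toSubmodule (H.comap (pre (RL ℓ) QB f))).FG := by
  have := RL_isPrincipalIdealRing ℓ
  apply Submodule.fg_of_fg_map_injective (pre (RL ℓ) QB f).toLinearMap
    (pre_injective_of_surjective (ℓ := ℓ) f hf)
  have hle : (Subalgebra.toSubmodule (H.comap (pre (RL ℓ) QB f))).map
      (pre (RL ℓ) QB f).toLinearMap ≤ Subalgebra.toSubmodule H := by
    rintro _ ⟨a, ha, rfl⟩
    exact ha
  have : IsNoetherian (RL ℓ) (Subalgebra.toSubmodule H) :=
    isNoetherian_of_fg_of_noetherian _ h.fg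
  exact Submodule.FG.of_le_of_isNoetherian hle

/-- a function of `H` which is constant on the fibres of `f` comes from the comap -/
theorem C3b_exists_comap {H : Subalgebra (RL ℓ) (G → QB)}
    (f : G →+ G') (hf : Function.Surjective f) (a : G → QB) (ha : a ∈ H)
    (hinv : ∀ x x', f x = f x' → a x = a x') :
    ∃ α ∈ H.comap (pre (RL ℓ) QB f), ∀ x, α (f x) = a x := by
  refine ⟨fun z => a (Function.surjInv hf z), ?_, ?_⟩
  · show pre (RL ℓ) QB f (fun z => a (Function.surjInv hf z)) ∈ H
    have : pre (RL ℓ) QB f (fun z => a (Function.surjInv hf z)) = a := by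
      funext x
      exact hinv _ _ (Function.surjInv_eq hf (f x))
    rw [this]
    exact ha
  · intro x
    exact hinv _ _ (Function.surjInv_eq hf (f x))

/-- (C3b) `CloQuotComul.lean` -/
theorem IsOrd.comap_comul [Finite G] {H : Subalgebra (RL ℓ) (G → QB)} (h : IsOrd ℓ G act H)
    (f : G →+ G') (hf : Function.Surjective f) (hact : ∀ σ x, f (act σ x) = act' σ (f x))
    (g : G' → QB) (hg : g ∈ H.comap (pre (RL ℓ) QB f)) :
    ∃ (n : ℕ) (a b : Fin n → (G' → QB)), (∀ i, a i ∈ H.comap (pre (RL ℓ) QB f)) ∧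
      (∀ i, b i ∈ H.comap (pre (RL ℓ) QB f)) ∧ ∀ x y, g (x + y) = ∑ i, a i x * b i y := by
  have := RL_isPrincipalIdealRing ℓ
  have := h.free
  have := h.finite
  set H' := H.comap (pre (RL ℓ) QB f) with hH'
  have hfin' : Module.Finite (RL ℓ) H' := Module.Finite.of_fg (h.comap_fg f hf)
  have hfree' : Module.Free (RL ℓ) H' := by
    have := RL_isTorsionFree_QB ℓ
    have : Module.IsTorsionFree (RL ℓ) (G' → QB) := inferInstance
    have : Module.IsTorsionFree (RL ℓ) (Subalgebra.toSubmodule H') := inferInstance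
    exact Module.free_of_finite_type_torsion_free' (R := RL ℓ) (M := Subalgebra.toSubmodule H')
  -- bases
  let β := Module.finBasis (RL ℓ) H
  have hβ := Fintype.linearIndependent_iff.mp (h.indK _ β β.linearIndependent)
  let e := Module.finBasis (RL ℓ) H'
  let ι : H' →ₗ[RL ℓ] H :=
    LinearMap.codRestrict (Subalgebra.toSubmodule H)
      ((pre (RL ℓ) QB f).toLinearMap ∘ₗ (Subalgebra.toSubmodule H').subtype) (fun a => a.2)
  have hι : Function.Injective ι := by
    intro a b hab
    apply Subtype.ext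
    apply pre_injective_of_surjective (ℓ := ℓ) f hf
    exact congrArg Subtype.val hab
  have he := Fintype.linearIndependent_iff.mp
    (h.indK _ (fun k => ι (e k)) (e.linearIndependent.map' ι (LinearMap.ker_eq_bot.mpr hι)))
  have hrepr : ∀ b : H, (b : G → QB) = ∑ j, (β.repr b j) • (β j : G → QB) := by
    intro b
    have h3 : ((∑ i, (β.repr b i) • β i : H) : G → QB) = b := congrArg Subtype.val (β.sum_repr b)
    refine h3.symm.trans ?_
    rw [AddSubmonoidClass.coe_finsetSum]
    rfl
  have hrepr' : ∀ b : H', (b : G' → QB) = ∑ j, (e.repr b j) • (e j : G' → QB) := by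
    intro b
    have h3 : ((∑ i, (e.repr b i) • e i : H') : G' → QB) = b := congrArg Subtype.val (e.sum_repr b)
    refine h3.symm.trans ?_
    rw [AddSubmonoidClass.coe_finsetSum]
    rfl
  obtain ⟨n, a, b, ha, hb, hab⟩ := h.comul _ hg
  have hab' : ∀ x y, g (f x + f y) = ∑ i, a i x * b i y := by
    intro x y
    rw [← hab, ← map_add]
    rfl
  -- Step 1
  let A : Fin _ → (G → QB) := fun j => ∑ i, (β.repr ⟨b i, hb i⟩ j) • a i
  have hA : ∀ j, A j ∈ H := fun j => H.sum_mem (fun i _ => H.smul_mem (ha i) _)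
  have hAβ : ∀ x y, g (f x + f y) = ∑ j, A j x * (β j : G → QB) y := by
    intro x y
    rw [hab']
    have h1 : ∀ i, b i y = ∑ j, (β.repr ⟨b i, hb i⟩ j) • (β j : G → QB) y := by
      intro i
      have := congrFun (hrepr ⟨b i, hb i⟩) y
      rw [Finset.sum_apply] at this
      exact this
    simp only [A, Finset.sum_apply, Pi.smul_apply, Finset.sum_mul]
    rw [Finset.sum_comm]
    apply Finset.sum_congr rfl
    intro i _
    rw [h1, Finset.mul_sum]
    apply Finset.sum_congr rfl
    intro j _
    simp only [Algebra.smul_def]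
    ring
  -- Step 2
  have hAinv : ∀ j x x', f x = f x' → A j x = A j x' := by
    intro j x x' hxx
    have h1 : ∑ j, (A j x - A j x') • (β j : G → QB) = 0 := by
      funext y
      rw [Finset.sum_apply]
      simp only [Pi.smul_apply, smul_eq_mul, sub_mul, Finset.sum_sub_distrib, Pi.zero_apply]
      rw [← hAβ, ← hAβ, hxx, sub_self]
    exact sub_eq_zero.mp (hβ _ h1 j)
  choose α hα hαA using fun j => C3b_exists_comap f hf (A j) (hA j) (hAinv j)
  -- Step 4
  let C : Fin _ → (G → QB) := fun k => ∑ j, (e.repr ⟨α j, hα j⟩ k) • (β j : G → QB)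
  have hC : ∀ k, C k ∈ H := fun k => H.sum_mem (fun j _ => H.smul_mem (β j).2 _)
  have heC : ∀ x y, g (f x + f y) = ∑ k, (e k : G' → QB) (f x) * C k y := by
    intro x y
    rw [hAβ]
    have h1 : ∀ j, A j x = ∑ k, (e.repr ⟨α j, hα j⟩ k) • (e k : G' → QB) (f x) := by
      intro j
      rw [← hαA]
      have := congrFun (hrepr' ⟨α j, hα j⟩) (f x)
      rw [Finset.sum_apply] at this
      exact this
    simp only [C, Finset.sum_apply, Pi.smul_apply, Finset.mul_sum]
    rw [Finset.sum_comm]
    apply Finset.sum_congr rfl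
    intro j _
    rw [h1, Finset.sum_mul]
    apply Finset.sum_congr rfl
    intro k _
    simp only [Algebra.smul_def]
    ring
  -- Step 5
  have hCinv : ∀ k y y', f y = f y' → C k y = C k y' := by
    intro k y y' hyy
    have h1 : ∑ k, (C k y - C k y') • ((ι (e k) : H) : G → QB) = 0 := by
      funext x
      rw [Finset.sum_apply]
      simp only [Pi.smul_apply, smul_eq_mul, sub_mul, Finset.sum_sub_distrib, Pi.zero_apply]
      have h2 : ∀ k, ((ι (e k) : H) : G → QB) x = (e k : G' → QB) (f x) := fun k => rfl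
      simp only [h2]
      have h3 := heC x y
      have h4 := heC x y'
      rw [hyy] at h3
      rw [h3] at h4
      simp only [mul_comm (C _ _)]
      rw [h4, sub_self]
    exact sub_eq_zero.mp (he _ h1 k)
  choose γ hγ hγC using fun k => C3b_exists_comap f hf (C k) (hC k) (hCinv k)
  refine ⟨_, fun k => (e k : G' → QB), γ, fun k => (e k).2, hγ, ?_⟩
  intro z w
  obtain ⟨x, rfl⟩ := hf z
  obtain ⟨y, rfl⟩ := hf w
  rw [heC]
  simp only [hγC]

end Fermat.Agent.S19Lib
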