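import Fermat.Agent.S19.Alg.Ind

set_option autoImplicit false
set_option linter.unusedSectionVars false

open scoped TensorProduct

namespace Fermat.Agent.S19Lib

variable {ℓ : ℕ} [Fact ℓ.Prime] {G G' : Type} [AddCommGroup G] [AddCommGroup G']
  {act : GalQ → G → G} {act' : GalQ → G' → G'}

/-- the action on the quotient is injective -/
theorem IsOrd.act_quot_injective [Finite G] {H : Subalgebra (RL ℓ) (G → QB)}
    (h : IsOrd ℓ G act H)
    (f : G →+ G') (hf : Function.Surjective f) (hact : ∀ σ x, f (act σ x) = act' σ (f x))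
    (σ : GalQ) : Function.Injective (act' σ) := by
  have hG' : Finite G' := Finite.of_surjective f hf
  apply Finite.injective_iff_surjective.mpr
  intro z
  obtain ⟨u, rfl⟩ := hf z
  obtain ⟨w, rfl⟩ := (h.act_bijective σ).2 u
  exact ⟨f w, (hact σ w).symm⟩

/-- summation over the fibres of `f` -/
noncomputable def fibSum [Finite G] (f : G →+ G') : (G → QB) →ₗ[QB] (G' → QB) :=
  letI := Fintype.ofFinite G
  letI := Classical.decEq G'
  { toFun := fun φ z => ∑ u ∈ Finset.univ.filter (fun u => f u = z), φ u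
    map_add' := by
      intro φ ψ
      funext z
      simp [Finset.sum_add_distrib]
    map_smul' := by
      intro c φ
      funext z
      simp [Finset.mul_sum] }

theorem fibSum_apply [Fintype G] [DecidableEq G'] (f : G →+ G') (φ : G → QB) (z : G') :
    fibSum f φ z = ∑ u ∈ Finset.univ.filter (fun u => f u = z), φ u := by
  unfold fibSum
  simp only [LinearMap.coe_mk, AddHom.coe_mk]
  apply Finset.sum_congr _ (fun _ _ => rfl)
  ext u
  simp

theorem IsOrd.fibSum_equiv [Finite G] {H : Subalgebra (RL ℓ) (G → QB)}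
    (h : IsOrd ℓ G act H)
    (f : G →+ G') (hf : Function.Surjective f) (hact : ∀ σ x, f (act σ x) = act' σ (f x))
    (φ : G → QB) (hφ : ∀ σ x, φ (act σ x) = σ (φ x)) (σ : GalQ) (z : G') :
    fibSum f φ (act' σ z) = σ (fibSum f φ z) := by
  classical
  have := Fintype.ofFinite G
  rw [fibSum_apply, fibSum_apply, map_sum]
  symm
  apply Finset.sum_bij (fun u _ => act σ u)
  · intro u hu
    simp only [Finset.mem_filter, Finset.mem_univ, true_and] at hu ⊢
    rw [hact, hu]
  · intro u _ v _ huv
    exact (h.act_bijective σ).1 huv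
  · intro v hv
    obtain ⟨u, rfl⟩ := (h.act_bijective σ).2 v
    refine ⟨u, ?_, rfl⟩
    simp only [Finset.mem_filter, Finset.mem_univ, true_and] at hv ⊢
    rw [hact] at hv
    exact h.act_quot_injective f hf hact σ hv
  · intro u _
    exact (hφ σ u).symm

/-- (C3a) `CloQuotSep.lean` -/
theorem IsOrd.comap_sep [Finite G] {H : Subalgebra (RL ℓ) (G → QB)} (h : IsOrd ℓ G act H)
    (f : G →+ G') (hf : Function.Surjective f) (hact : ∀ σ x, f (act σ x) = act' σ (f x))
    (x y : G') (hxy : ∀ g ∈ H.comap (pre (RL ℓ) QB f), g x = g y) : x = y := by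
  classical
  have := Fintype.ofFinite G
  by_contra hne
  let L : (G → QB) →ₗ[QB] QB :=
    ((LinearMap.proj x : (G' → QB) →ₗ[QB] QB) - (LinearMap.proj y : (G' → QB) →ₗ[QB] QB)) ∘ₗ
      fibSum f
  have hL : ∀ φ, L φ = fibSum f φ x - fibSum f φ y := fun φ => rfl
  have hH : (H : Set (G → QB)) ⊆ LinearMap.ker L := by
    intro φ hφ
    have h1 : ∀ (σ : GalQ) (u : G), (fibSum f φ ∘ f) (act σ u) = σ ((fibSum f φ ∘ f) u) := by
      intro σ u
      show fibSum f φ (f (act σ u)) = σ (fibSum f φ (f u))
      rw [hact, h.fibSum_equiv f hf hact φ (h.equiv φ hφ)]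
    obtain ⟨n, hn0, hn⟩ := h.exists_nat_smul_mem _ h1
    have h2 := hxy ((n : QB) • fibSum f φ) hn
    simp only [Pi.smul_apply, smul_eq_mul] at h2
    have hn' : (n : QB) ≠ 0 := by exact_mod_cast hn0
    have h3 := mul_left_cancel₀ hn' h2
    show L φ = 0
    rw [hL, h3, sub_self]
  have htop : (⊤ : Submodule QB (G → QB)) ≤ LinearMap.ker L := by
    rw [← span_eq_top_of_sep H h.sep]
    exact Submodule.span_le.mpr hH
  obtain ⟨u0, hu0⟩ := hf x
  have h4 : L (Pi.single u0 1) = 0 := htop trivial
  rw [hL, fibSum_apply, fibSum_apply] at h4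
  rw [Finset.sum_eq_single u0, Finset.sum_eq_zero] at h4
  · simp at h4
  · intro u hu
    simp only [Finset.mem_filter, Finset.mem_univ, true_and] at hu
    apply Pi.single_eq_of_ne
    rintro rfl
    exact hne (hu0.symm.trans hu)
  · intro u _ hu
    exact Pi.single_eq_of_ne hu _
  · intro hu
    exfalso
    apply hu
    simp [hu0]

end Fermat.Agent.S19Lib
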