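import Fermat.Agent.S19.Alg.Defs

set_option autoImplicit false
set_option linter.unusedSectionVars false

open scoped TensorProduct

namespace Fermat.Agent.S19Lib

variable {ℓ : ℕ} [Fact ℓ.Prime] {G G' : Type} [AddCommGroup G] [AddCommGroup G']
  {act : GalQ → G → G} {act' : GalQ → G' → G'}

/-! ### (C1) `Alg/CloSub.lean` -/

theorem HasOrd.of_injective (f : G' →+ G) (hf : Function.Injective f)
    (hact : ∀ σ x, f (act' σ x) = act σ (f x)) (h : HasOrd ℓ G act) : HasOrd ℓ G' act' := by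
  obtain ⟨H, hH⟩ := h
  refine ⟨H.map (pre (RL ℓ) QB f), ?_, ?_, ?_, ?_⟩
  · rintro _ ⟨g, hg, rfl⟩ σ x
    show g (f (act' σ x)) = σ (g (f x))
    rw [hact, hH.equiv g hg]
  · rw [Subalgebra.map_toSubmodule]
    exact hH.fg.map _
  · rintro _ ⟨g, hg, rfl⟩
    obtain ⟨n, a, b, ha, hb, hab⟩ := hH.comul g hg
    refine ⟨n, fun i => pre (RL ℓ) QB f (a i), fun i => pre (RL ℓ) QB f (b i),
      fun i => ⟨a i, ha i, rfl⟩, fun i => ⟨b i, hb i, rfl⟩, ?_⟩
    intro x y
    show g (f (x + y)) = ∑ i, a i (f x) * b i (f y)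
    rw [map_add, hab]
  · intro x y hxy
    apply hf
    apply hH.sep
    intro g hg
    exact hxy _ ⟨g, hg, rfl⟩

end Fermat.Agent.S19Lib
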