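import Mathlib
import Fermat.Prelude.Def_GaloisRep_Flat
import Fermat.Agent.S19.RepDefs

/-!
# S19 / S32, algebra side: Hopf orders inside `Map(G, ℚ̄)` (definitions)

* `IsOrd ℓ G act H` : `H` is a Galois equivariant, finitely generated, translation costable,
  point separating `ℤ_(ℓ)`-subalgebra of `G → ℚ̄`
* `HasOrd ℓ G act` : such an `H` exists
* `IsFlatGrp ℓ G act` : the conclusion of S19 / `IsFlatAt`
* `HopfData H` : the abstract hypotheses which make a subalgebra `H` of `G → K` a Hopf algebra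
-/

set_option autoImplicit false
set_option linter.unusedSectionVars false

open scoped TensorProduct

namespace Fermat.Agent.S19Lib

/-- `ℚ̄` -/
abbrev QB : Type := AlgebraicClosure ℚ

/-- the absolute Galois group -/
abbrev GalQ : Type := QB ≃ₐ[ℚ] QB

/-- `ℤ_(ℓ)` -/
abbrev RL (ℓ : ℕ) : Type := ↥(GaloisRep.ratLocalizedAt ℓ)

/-- Hopf orders in `Map(G, ℚ̄)` -/
structure IsOrd (ℓ : ℕ) (G : Type) [AddCommGroup G] (act : GalQ → G → G)
    (H : Subalgebra (RL ℓ) (G → QB)) : Prop where
  equiv : ∀ h ∈ H, ∀ (σ : GalQ) (x : G), h (act σ x) = σ (h x)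
  fg : (Subalgebra.toSubmodule H).FG
  comul : ∀ h ∈ H, ∃ (n : ℕ) (a b : Fin n → (G → QB)), (∀ i, a i ∈ H) ∧ (∀ i, b i ∈ H) ∧
    ∀ x y, h (x + y) = ∑ i, a i x * b i y
  sep : ∀ x y : G, (∀ h ∈ H, h x = h y) → x = y

/-- `G` (with the Galois action `act`) has a Hopf order over `ℤ_(ℓ)` -/
def HasOrd (ℓ : ℕ) (G : Type) [AddCommGroup G] (act : GalQ → G → G) : Prop :=
  ∃ H : Subalgebra (RL ℓ) (G → QB), IsOrd ℓ G act H

/-- the conclusion of S19 / `GaloisRepAdic.IsFlatAt` -/
def IsFlatGrp (ℓ : ℕ) (G : Type) [AddCommGroup G] (act : GalQ → G → G) : Prop :=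
  ∃ (H : Type) (_ : CommRing H) (_ : HopfAlgebra (GaloisRep.ratLocalizedAt ℓ) H),
    Module.Finite (GaloisRep.ratLocalizedAt ℓ) H ∧ Module.Flat (GaloisRep.ratLocalizedAt ℓ) H ∧
    Coalgebra.IsCocomm (GaloisRep.ratLocalizedAt ℓ) H ∧
    ∃ e : WithConv (H →ₐ[GaloisRep.ratLocalizedAt ℓ] AlgebraicClosure ℚ) ≃ G,
      (∀ f g, e (f * g) = e f + e g) ∧
      ∀ (σ : AlgebraicClosure ℚ ≃ₐ[ℚ] AlgebraicClosure ℚ)
        (f g : WithConv (H →ₐ[GaloisRep.ratLocalizedAt ℓ] AlgebraicClosure ℚ)),
        (∀ h : H, g h = σ (f h)) → e g = act σ (e f)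

section abstract

variable {R K G : Type} [CommRing R] [Field K] [Algebra R K] [AddCommGroup G]

/-- precomposition with `f : Y → X` as an algebra homomorphism -/
noncomputable def pre (R K : Type) [CommRing R] [Field K] [Algebra R K] {X Y : Type} (f : Y → X) :
    (X → K) →ₐ[R] (Y → K) :=
  AlgHom.pi (fun y => Pi.evalAlgHom R (fun _ : X => K) (f y))

@[simp] theorem pre_apply {X Y : Type} (f : Y → X) (h : X → K) (y : Y) :
    pre R K f h y = h (f y) := rfl

variable (H : Subalgebra R (G → K))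

/-- `H ⊗ H → Map(G × G, K)` -/
noncomputable def mu2 : H ⊗[R] H →ₐ[R] (G × G → K) :=
  Algebra.TensorProduct.productMap ((pre R K Prod.fst).comp H.val) ((pre R K Prod.snd).comp H.val)

@[simp] theorem mu2_tmul (a b : H) (p : G × G) :
    mu2 H (a ⊗ₜ[R] b) p = (a : G → K) p.1 * (b : G → K) p.2 := by
  simp [mu2]

/-- `H ⊗ (H ⊗ H) → Map(G × G × G, K)` -/
noncomputable def mu3 : H ⊗[R] (H ⊗[R] H) →ₐ[R] (G × G × G → K) :=
  Algebra.TensorProduct.productMap ((pre R K Prod.fst).comp H.val)
    ((pre R K Prod.snd).comp (mu2 H))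

@[simp] theorem mu3_tmul (a : H) (t : H ⊗[R] H) (p : G × G × G) :
    mu3 H (a ⊗ₜ[R] t) p = (a : G → K) p.1 * mu2 H t p.2 := by
  simp [mu3]

/-- `R`-independent families of `H` stay independent over `K` -/
def IndK : Prop :=
  ∀ (n : ℕ) (v : Fin n → H), LinearIndependent R v → LinearIndependent K (fun i => (v i : G → K))

/-- the hypotheses which make `H` a Hopf algebra -/
structure HopfData : Prop where
  injR : Function.Injective (algebraMap R K)
  inj2 : Function.Injective (mu2 H)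
  inj3 : Function.Injective (mu3 H)
  add_mem : ∀ h : H, ((pre R K (fun p : G × G => p.1 + p.2)).comp H.val) h ∈ (mu2 H).range
  zero_mem : ∀ h : H, ((Pi.evalAlgHom R (fun _ : G => K) 0).comp H.val) h ∈ (Algebra.ofId R K).range
  neg_mem : ∀ h : H, pre R K (fun x : G => -x) (h : G → K) ∈ H

variable {H}

/-- the comultiplication -/
noncomputable def HopfData.comul (D : HopfData H) : H →ₐ[R] H ⊗[R] H :=
  ((AlgEquiv.ofInjective (mu2 H) D.inj2).symm : (mu2 H).range →ₐ[R] H ⊗[R] H).comp
    (AlgHom.codRestrict ((pre R K (fun p : G × G => p.1 + p.2)).comp H.val) (mu2 H).range D.add_mem)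

theorem HopfData.mu2_comul (D : HopfData H) (h : H) (p : G × G) :
    mu2 H (D.comul h) p = (h : G → K) (p.1 + p.2) := by
  have h1 : mu2 H (D.comul h) =
      ((pre R K (fun p : G × G => p.1 + p.2)).comp H.val) h := by
    have := (AlgEquiv.ofInjective (mu2 H) D.inj2).apply_symm_apply
      (AlgHom.codRestrict ((pre R K (fun p : G × G => p.1 + p.2)).comp H.val) (mu2 H).range
        D.add_mem h)
    exact congrArg Subtype.val this
  rw [h1]; rfl

/-- the counit -/
noncomputable def HopfData.counit (D : HopfData H) : H →ₐ[R] R :=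
  ((AlgEquiv.ofInjective (Algebra.ofId R K) D.injR).symm : (Algebra.ofId R K).range →ₐ[R] R).comp
    (AlgHom.codRestrict ((Pi.evalAlgHom R (fun _ : G => K) 0).comp H.val) (Algebra.ofId R K).range
      D.zero_mem)

theorem HopfData.algebraMap_counit (D : HopfData H) (h : H) :
    algebraMap R K (D.counit h) = (h : G → K) 0 := by
  have := (AlgEquiv.ofInjective (Algebra.ofId R K) D.injR).apply_symm_apply
    (AlgHom.codRestrict ((Pi.evalAlgHom R (fun _ : G => K) 0).comp H.val) (Algebra.ofId R K).range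
      D.zero_mem h)
  exact congrArg Subtype.val this

/-- the antipode -/
noncomputable def HopfData.antipode (D : HopfData H) : H →ₐ[R] H :=
  AlgHom.codRestrict ((pre R K (fun x : G => -x)).comp H.val) H D.neg_mem

@[simp] theorem HopfData.antipode_apply (D : HopfData H) (h : H) (x : G) :
    (D.antipode h : G → K) x = (h : G → K) (-x) := rfl

end abstract

end Fermat.Agent.S19Lib
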