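import Fermat.Agent.S19.Alg.HopfAnti

set_option autoImplicit false
set_option linter.unusedSectionVars false

open scoped TensorProduct

namespace Fermat.Agent.S19Lib

variable {R K G : Type} [CommRing R] [Field K] [Algebra R K] [AddCommGroup G]
variable {H : Subalgebra R (G → K)}

/-! ### (AH3) `Alg/HopfPts.lean` : the group of points -/

theorem AH3_lift_eq (f g : H →ₐ[R] K) (x y : G) (hf : ∀ h : H, f h = (h : G → K) x)
    (hg : ∀ h : H, g h = (h : G → K) y) (t : H ⊗[R] H) :
    Algebra.TensorProduct.lift f g (fun _ _ => .all ..) t = mu2 H t (x, y) := by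
  induction t using TensorProduct.induction_on with
  | zero => simp
  | tmul a c =>
    rw [Algebra.TensorProduct.lift_tmul, mu2_tmul, hf, hg]
  | add s t hs ht =>
    rw [map_add, map_add, Pi.add_apply, hs, ht]

theorem HopfData.exists_equiv (D : HopfData H)
    (hpts : ∀ f : H →ₐ[R] K, ∃ x : G, ∀ h : H, f h = (h : G → K) x)
    (hsep : ∀ x y : G, (∀ h ∈ H, h x = h y) → x = y) :
    letI := D.hopf
    ∃ e : WithConv (H →ₐ[R] K) ≃ G, (∀ f g, e (f * g) = e f + e g) ∧
      ∀ (f : WithConv (H →ₐ[R] K)) (h : H), f h = (h : G → K) (e f) := by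
  letI := D.hopf
  choose pt hpt using hpts
  let ev : G → (H →ₐ[R] K) := fun x => (Pi.evalAlgHom R (fun _ : G => K) x).comp H.val
  let e : WithConv (H →ₐ[R] K) ≃ G :=
    { toFun := fun f => pt f.ofConv
      invFun := fun x => WithConv.toConv (ev x)
      left_inv := by
        intro f
        apply WithConv.ext
        apply AlgHom.ext
        intro h
        exact (hpt f.ofConv h).symm
      right_inv := by
        intro x
        apply hsep
        intro h hh
        exact (hpt (ev x) ⟨h, hh⟩).symm }
  have he : ∀ (f : WithConv (H →ₐ[R] K)) (h : H), f h = (h : G → K) (e f) :=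
    fun f h => hpt f.ofConv h
  refine ⟨e, ?_, he⟩
  intro f g
  apply hsep
  intro h hh
  have h1 := he (f * g) ⟨h, hh⟩
  rw [AlgHom.convMul_apply] at h1
  have h2 := AH3_lift_eq f.ofConv g.ofConv (e f) (e g) (he f) (he g) (D.comul ⟨h, hh⟩)
  rw [D.mu2_comul] at h2
  exact h1.symm.trans h2

end Fermat.Agent.S19Lib
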