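import Fermat.Agent.S19.Alg.Defs

set_option autoImplicit false
set_option linter.unusedSectionVars false

open scoped TensorProduct

namespace Fermat.Agent.S19Lib

variable {R K G : Type} [CommRing R] [Field K] [Algebra R K] [AddCommGroup G]
variable (H : Subalgebra R (G → K))

/-! ### (PTS) `Alg/Pts.lean` -/

/-- multiplicative `K`-linear functionals on `X → K` are evaluations -/
theorem PTS_exists_eval {X : Type} [Finite X] (F : (X → K) →ₗ[K] K) (h1 : F 1 = 1)
    (hmul : ∀ a b, F (a * b) = F a * F b) : ∃ x : X, ∀ a, F a = a x := by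
  classical
  have := Fintype.ofFinite X
  have hsum : (1 : X → K) = ∑ x, (Pi.single x 1 : X → K) := by
    funext z
    rw [Finset.sum_apply]
    simp [Pi.single_apply]
  have hex : ∃ x, F (Pi.single x 1) ≠ 0 := by
    by_contra hcon
    push Not at hcon
    rw [hsum, map_sum, Finset.sum_eq_zero (fun x _ => hcon x)] at h1
    exact zero_ne_one h1
  obtain ⟨x, hx⟩ := hex
  refine ⟨x, fun a => ?_⟩
  have h2 : a * (Pi.single x 1 : X → K) = a x • (Pi.single x 1 : X → K) := by
    funext z
    by_cases hz : z = x
    · subst hz; simp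
    · simp [Pi.single_eq_of_ne hz]
  have h3 := hmul a (Pi.single x 1)
  rw [h2, map_smul, smul_eq_mul] at h3
  exact (mul_right_cancel₀ hx h3).symm

theorem exists_eval_of [Finite G] [Module.Free R H] [Module.Finite R H] (hind : IndK H)
    (hspan : Submodule.span K (H : Set (G → K)) = ⊤) (f : H →ₐ[R] K) :
    ∃ x : G, ∀ h : H, f h = (h : G → K) x := by
  have : Nontrivial R := (algebraMap R K).domain_nontrivial
  let b := Module.finBasis R H
  have hb := hind _ b b.linearIndependent
  have hrepr : ∀ h : H, (h : G → K) = ∑ i, (b.repr h i) • (b i : G → K) := by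
    intro h
    have h3 : ((∑ i, (b.repr h i) • b i : H) : G → K) = h := congrArg Subtype.val (b.sum_repr h)
    refine h3.symm.trans ?_
    rw [AddSubmonoidClass.coe_finsetSum]
    rfl
  have hsp : ⊤ ≤ Submodule.span K (Set.range (fun i => (b i : G → K))) := by
    rw [← hspan, Submodule.span_le]
    intro g hg
    have h2 := hrepr ⟨g, hg⟩
    have h2' : g = ∑ i, (b.repr ⟨g, hg⟩ i) • (b i : G → K) := h2
    rw [h2']
    apply Submodule.sum_mem
    intro i _
    rw [← algebraMap_smul K (b.repr ⟨g, hg⟩ i) (b i : G → K)]
    exact Submodule.smul_mem _ _ (Submodule.subset_span ⟨i, rfl⟩)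
  let bK : Module.Basis _ K (G → K) := Module.Basis.mk hb hsp
  let F : (G → K) →ₗ[K] K := bK.constr K (fun i => f (b i))
  have hFb : ∀ i, F (b i : G → K) = f (b i) := by
    intro i
    have h1 : (b i : G → K) = bK i := (Module.Basis.mk_apply hb hsp i).symm
    rw [h1]
    exact bK.constr_basis K _ i
  have hFH : ∀ h : H, F (h : G → K) = f h := by
    intro h
    rw [hrepr h, map_sum]
    conv_rhs => rw [← b.sum_repr h, map_sum]
    apply Finset.sum_congr rfl
    intro i _
    rw [← algebraMap_smul K (b.repr h i) (b i : G → K), map_smul, hFb, map_smul,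
      algebraMap_smul]
  have hmul : ∀ a c, F (a * c) = F a * F c := by
    intro a c
    have ha : a ∈ Submodule.span K (H : Set (G → K)) := by rw [hspan]; trivial
    have hc : c ∈ Submodule.span K (H : Set (G → K)) := by rw [hspan]; trivial
    induction ha using Submodule.span_induction with
    | mem a ha =>
      induction hc using Submodule.span_induction with
      | mem c hc =>
        have := hFH (⟨a, ha⟩ * ⟨c, hc⟩)
        rw [map_mul, ← hFH, ← hFH] at this
        exact this
      | zero => simp
      | add c c' _ _ h1 h2 => rw [mul_add, map_add, map_add, h1, h2, mul_add]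
      | smul t c _ h1 => rw [mul_smul_comm, map_smul, map_smul, h1, smul_eq_mul, smul_eq_mul]; ring
    | zero => simp
    | add a a' _ _ h1 h2 => rw [add_mul, map_add, map_add, h1, h2, add_mul]
    | smul t a _ h1 => rw [smul_mul_assoc, map_smul, map_smul, h1, smul_eq_mul, smul_eq_mul]; ring
  have h1 : F 1 = 1 := by
    have := hFH 1
    rw [map_one] at this
    exact this
  obtain ⟨x, hx⟩ := PTS_exists_eval F h1 hmul
  exact ⟨x, fun h => by rw [← hFH, hx]⟩

end Fermat.Agent.S19Lib
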