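import Fermat.Agent.S19.Alg.RL
import Fermat.Agent.S19.Alg.Com

set_option autoImplicit false
set_option linter.unusedSectionVars false

open scoped TensorProduct

namespace Fermat.Agent.S19Lib

open Polynomial in
/-- an equivariant function with values in `A` is integral over `ℤ_(ℓ)` -/
theorem REP_isIntegral {ℓ : ℕ} [Fact ℓ.Prime] {Y : Type} [Finite Y] (a : GalQ → Y → Y)
    (ha : ∀ σ, Function.Bijective (a σ)) (A : ValuationSubring QB) (hA : ((ℓ : QB))⁻¹ ∉ A)
    (f : Y → QB) (hfA : ∀ x, f x ∈ A) (hf : ∀ σ x, f (a σ x) = σ (f x)) :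
    IsIntegral (RL ℓ) f := by
  classical
  have := Fintype.ofFinite Y
  set P : QB[X] := ∏ x : Y, (X - C (f x)) with hP
  have hmonic : P.Monic := monic_prod_of_monic _ _ (fun x _ => monic_X_sub_C _)
  have hfix : ∀ σ : GalQ, P.map (σ : QB →+* QB) = P := by
    intro σ
    rw [hP, Polynomial.map_prod]
    have h1 : ∀ x, (X - C (f x)).map (σ : QB →+* QB) = X - C (f (a σ x)) := by
      intro x
      rw [Polynomial.map_sub, Polynomial.map_X, Polynomial.map_C, hf]
      rfl
    simp only [h1]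
    exact (Equiv.ofBijective _ (ha σ)).prod_comp (fun x => X - C (f x))
  have hPA : P ∈ lifts A.subtype := by
    rw [hP]
    apply Subsemiring.prod_mem
    intro x _
    refine ⟨X - C ⟨f x, hfA x⟩, ?_⟩
    simp
  have hlift : P ∈ lifts (algebraMap (RL ℓ) QB) := by
    rw [lifts_iff_coeff_lifts]
    intro n
    have h1 : ∀ σ : GalQ, σ (P.coeff n) = P.coeff n := by
      intro σ
      have := congrArg (fun p => p.coeff n) (hfix σ)
      simpa [Polynomial.coeff_map] using this
    obtain ⟨q, hq⟩ := mem_range_of_galois_fixed _ h1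
    have h2 : P.coeff n ∈ A := by
      obtain ⟨y, hy⟩ := (lifts_iff_coeff_lifts _).mp hPA n
      rw [← hy]
      exact y.2
    rw [← hq] at h2
    exact ⟨⟨q, RL_mem_of_mem_valuationSubring ℓ A hA q h2⟩, hq⟩
  obtain ⟨Q, hQ, -, hQm⟩ := lifts_and_natDegree_eq_and_monic hlift hmonic
  refine ⟨Q, hQm, ?_⟩
  funext x
  have h1 : (Q.eval₂ (algebraMap (RL ℓ) (Y → QB)) f) x
      = Q.eval₂ (algebraMap (RL ℓ) QB) (f x) := by
    have := Polynomial.hom_eval₂ Q (algebraMap (RL ℓ) (Y → QB)) (Pi.evalRingHom (fun _ => QB) x) f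
    exact this
  rw [h1, ← Polynomial.eval_map, hQ, hP, Polynomial.eval_prod]
  apply Finset.prod_eq_zero (Finset.mem_univ x)
  simp

variable {ℓ : ℕ} [Fact ℓ.Prime] {G : Type} [AddCommGroup G] [Finite G] {act : GalQ → G → G}
  {H : Subalgebra (RL ℓ) (G → QB)}

/-! ### (REP) `Alg/Rep.lean` -/

theorem IsIntRep.hasOrd (A : ValuationSubring QB) (hA : ((ℓ : QB))⁻¹ ∉ A)
    (h : IsIntRep A G act) : HasOrd ℓ G act := by
  obtain ⟨r, c, hadd, hzero, hinj, hint, hgal⟩ := h
  have hbij : ∀ σ, Function.Bijective (act σ) := by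
    intro σ
    apply Function.Injective.bijective_of_finite
    intro x y hxy
    apply hinj
    ext i j
    apply σ.injective
    rw [← hgal, ← hgal, hxy]
  set S : Set (G → QB) := Set.range (fun ij : Fin r × Fin r => fun x => c x ij.1 ij.2) with hS
  refine ⟨Algebra.adjoin (RL ℓ) S, ?_⟩
  rw [isOrd_iff]
  refine ⟨?_, ?_, ?_, ?_⟩
  · apply Algebra.adjoin_le
    rintro _ ⟨ij, rfl⟩
    exact fun σ x => hgal σ x ij.1 ij.2
  · apply fg_adjoin_of_finite (Set.finite_range _)
    rintro _ ⟨ij, rfl⟩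
    exact REP_isIntegral act hbij A hA _ (fun x => hint x ij.1 ij.2)
      (fun σ x => hgal σ x ij.1 ij.2)
  · apply Algebra.adjoin_le
    rintro _ ⟨ij, rfl⟩
    show _ ∈ comulSub _
    rw [mem_comulSub_iff]
    refine ⟨r, fun k x => c x ij.1 k, fun k x => c x k ij.2, ?_, ?_, ?_⟩
    · intro k
      exact Algebra.subset_adjoin ⟨(ij.1, k), rfl⟩
    · intro k
      exact Algebra.subset_adjoin ⟨(k, ij.2), rfl⟩
    · intro x y
      show c (x + y) ij.1 ij.2 = ∑ k, c x ij.1 k * c y k ij.2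
      rw [hadd, Matrix.mul_apply]
  · intro x y hxy
    apply hinj
    ext i j
    exact hxy _ (Algebra.subset_adjoin ⟨(i, j), rfl⟩)

end Fermat.Agent.S19Lib
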