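import Fermat.Agent.S19.Alg.HD
import Fermat.Agent.S19.Alg.HopfPts
import Fermat.Agent.S19.Alg.Pts
import Fermat.Agent.S19.Alg.Rep

set_option autoImplicit false
set_option linter.unusedSectionVars false

open scoped TensorProduct

namespace Fermat.Agent.S19Lib

variable {ℓ : ℕ} [Fact ℓ.Prime] {G : Type} [AddCommGroup G] [Finite G] {act : GalQ → G → G}

/-- (FIN) a Hopf order gives the finite flat cocommutative Hopf algebra of S19 / `IsFlatAt` -/
theorem HasOrd.isFlatGrp (h : HasOrd ℓ G act) : IsFlatGrp ℓ G act := by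
  obtain ⟨H, hH⟩ := h
  have D := hH.hopfData
  have := hH.free
  have := hH.finite
  have hspan := span_eq_top_of_sep H hH.sep
  obtain ⟨e, he1, he2⟩ := D.exists_equiv (exists_eval_of H hH.indK hspan) hH.sep
  refine ⟨H, inferInstance, D.hopf, hH.finite, Module.Flat.of_free, D.isCocomm, e, he1, ?_⟩
  intro σ f g hfg
  apply hH.sep
  intro h hh
  have h1 := hfg ⟨h, hh⟩
  rw [he2 g ⟨h, hh⟩, he2 f ⟨h, hh⟩] at h1
  rw [hH.equiv h hh]
  exact h1

end Fermat.Agent.S19Lib
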