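import Fermat.Agent.S19.Alg.Defs

set_option autoImplicit false
set_option linter.unusedSectionVars false

open scoped TensorProduct

namespace Fermat.Agent.S19Lib

variable {R K G : Type} [CommRing R] [Field K] [Algebra R K] [AddCommGroup G]
variable (H : Subalgebra R (G → K))

/-! ### (TENS) `Alg/Tens.lean` -/

theorem TENS_aux {M Y : Type} [AddCommGroup M] [Module R M] [Module.Free R H] [Module.Finite R H]
    (hind : IndK H) (φ : M →ₗ[R] (Y → K)) (hφ : Function.Injective φ)
    (Φ : H ⊗[R] M →ₗ[R] (G × Y → K))
    (hΦ : ∀ (a : H) (m : M) (p : G × Y), Φ (a ⊗ₜ m) p = (a : G → K) p.1 * φ m p.2) :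
    Function.Injective Φ := by
  have : Nontrivial R := (algebraMap R K).domain_nontrivial
  let b := Module.finBasis R H
  have hb := hind _ b b.linearIndependent
  rw [injective_iff_map_eq_zero]
  intro t ht
  obtain ⟨c, rfl⟩ := TensorProduct.eq_repr_basis_left b t
  have hc : ∀ i, c i = 0 := by
    intro i
    apply hφ
    rw [map_zero]
    funext y
    have h1 : ∑ j, (φ (c j) y) • (b j : G → K) = 0 := by
      funext x
      have h2 := congrFun ht (x, y)
      rw [Finsupp.sum_fintype _ _ (by intro j; simp), map_sum, Finset.sum_apply] at h2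
      simp only [hΦ] at h2
      rw [Finset.sum_apply]
      simp only [Pi.smul_apply, smul_eq_mul, Pi.zero_apply] at h2 ⊢
      rw [← h2]
      apply Finset.sum_congr rfl
      intro j _
      ring
    exact Fintype.linearIndependent_iff.mp hb _ h1 i
  have hc0 : c = 0 := Finsupp.ext hc
  rw [hc0]
  simp

theorem mu2_injective_of [Module.Free R H] [Module.Finite R H] (hind : IndK H) :
    Function.Injective (mu2 H) :=
  TENS_aux H hind H.val.toLinearMap Subtype.val_injective (mu2 H).toLinearMap
    (fun a m p => mu2_tmul H a m p)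

theorem mu3_injective_of [Module.Free R H] [Module.Finite R H] (hind : IndK H) :
    Function.Injective (mu3 H) :=
  letI : AddCommGroup (H ⊗[R] H) := TensorProduct.addCommGroup
  TENS_aux H hind (mu2 H).toLinearMap (mu2_injective_of H hind) (mu3 H).toLinearMap
    (fun a m p => mu3_tmul H a m p)

end Fermat.Agent.S19Lib
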