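import Fermat.Agent.S19.Alg.Ind
import Fermat.Agent.S19.Alg.Tens

set_option autoImplicit false
set_option linter.unusedSectionVars false

open scoped TensorProduct

namespace Fermat.Agent.S19Lib

variable {ℓ : ℕ} [Fact ℓ.Prime] {G : Type} [AddCommGroup G] [Finite G] {act : GalQ → G → G}
  {H : Subalgebra (RL ℓ) (G → QB)}

/-! ### (HD) `Alg/HD.lean` -/

/-- the value at `0` lies in `ℤ_(ℓ)` -/
theorem IsOrd.exists_apply_zero (h : IsOrd ℓ G act H) (f : G → QB) (hf : f ∈ H) :
    ∃ r : RL ℓ, algebraMap (RL ℓ) QB r = f 0 := by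
  have hfix : ∀ σ : GalQ, σ (f 0) = f 0 := by
    intro σ
    rw [← h.equiv f hf, h.act_zero]
  obtain ⟨q, hq⟩ := mem_range_of_galois_fixed (f 0) hfix
  have hint := h.isIntegral_apply f hf 0
  rw [← hq] at hint
  exact ⟨⟨q, RL_mem_of_isIntegral ℓ q hint⟩, hq⟩

theorem IsOrd.comp_nsmul_mem (h : IsOrd ℓ G act H) (k : ℕ) (f : G → QB) (hf : f ∈ H) :
    (fun x => f (k • x)) ∈ H := by
  induction k generalizing f with
  | zero =>
    obtain ⟨r, hr⟩ := h.exists_apply_zero f hf
    have : (fun x : G => f (0 • x)) = algebraMap (RL ℓ) (G → QB) r := by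
      funext x
      rw [zero_smul, ← hr]
      rfl
    rw [this]
    exact H.algebraMap_mem r
  | succ k ih =>
    obtain ⟨n, a, b, ha, hb, hab⟩ := h.comul f hf
    have : (fun x : G => f ((k + 1) • x)) = ∑ i, (fun x => a i (k • x)) * b i := by
      funext x
      rw [succ_nsmul, hab, Finset.sum_apply]
      rfl
    rw [this]
    apply Subalgebra.sum_mem
    intro i _
    exact H.mul_mem (ih (a i) (ha i)) (hb i)

theorem IsOrd.hopfData (h : IsOrd ℓ G act H) : HopfData H := by
  have := h.free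
  have := h.finite
  refine ⟨RL_algebraMap_injective ℓ, mu2_injective_of H h.indK, mu3_injective_of H h.indK,
    ?_, ?_, ?_⟩
  · intro f
    obtain ⟨n, a, b, ha, hb, hab⟩ := h.comul f f.2
    refine ⟨∑ i, (⟨a i, ha i⟩ : H) ⊗ₜ[RL ℓ] (⟨b i, hb i⟩ : H), ?_⟩
    funext p
    simp only [map_sum, Finset.sum_apply]
    exact (hab p.1 p.2).symm
  · intro f
    obtain ⟨r, hr⟩ := h.exists_apply_zero f f.2
    exact ⟨r, hr⟩
  · intro f
    have h1 := h.comp_nsmul_mem (Nat.card G - 1) f f.2
    have h2 : pre (RL ℓ) QB (fun x : G => -x) (f : G → QB)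
        = fun x => (f : G → QB) ((Nat.card G - 1) • x) := by
      funext x
      rw [pre_apply]
      have h3 : (Nat.card G - 1) • x + x = 0 := by
        rw [← succ_nsmul, Nat.sub_add_cancel Nat.card_pos]
        exact card_nsmul_eq_zero'
      rw [← eq_neg_of_add_eq_zero_left h3]
    rw [h2]
    exact h1

end Fermat.Agent.S19Lib
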