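import Fermat.Agent.S19.Alg.HopfCo

set_option autoImplicit false
set_option linter.unusedSectionVars false

open scoped TensorProduct

namespace Fermat.Agent.S19Lib

variable {R K G : Type} [CommRing R] [Field K] [Algebra R K] [AddCommGroup G]
variable {H : Subalgebra R (G → K)}

/-! ### (AH2) `Alg/HopfAnti.lean` : antipode, cocommutativity -/

theorem AH2_mul_rTensor (D : HopfData H) (t : H ⊗[R] H) (x : G) :
    (LinearMap.mul' R H (D.antipode.toLinearMap.rTensor H t) : G → K) x = mu2 H t (-x, x) := by
  induction t using TensorProduct.induction_on with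
  | zero => simp
  | tmul a c =>
    rw [LinearMap.rTensor_tmul, LinearMap.mul'_apply, mu2_tmul]
    rfl
  | add s t hs ht =>
    rw [map_add, map_add, map_add, Pi.add_apply, ← hs, ← ht]
    rfl

theorem AH2_mul_lTensor (D : HopfData H) (t : H ⊗[R] H) (x : G) :
    (LinearMap.mul' R H (D.antipode.toLinearMap.lTensor H t) : G → K) x = mu2 H t (x, -x) := by
  induction t using TensorProduct.induction_on with
  | zero => simp
  | tmul a c =>
    rw [LinearMap.lTensor_tmul, LinearMap.mul'_apply, mu2_tmul]
    rfl
  | add s t hs ht =>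
    rw [map_add, map_add, map_add, Pi.add_apply, ← hs, ← ht]
    rfl

theorem AH2_mu2_comm (t : H ⊗[R] H) (x y : G) :
    mu2 H (TensorProduct.comm R H H t) (x, y) = mu2 H t (y, x) := by
  induction t using TensorProduct.induction_on with
  | zero => simp
  | tmul a c =>
    rw [TensorProduct.comm_tmul, mu2_tmul, mu2_tmul, mul_comm]
  | add s t hs ht =>
    rw [map_add, map_add, map_add, Pi.add_apply, Pi.add_apply, hs, ht]

theorem HopfData.mul_antipode_rTensor (D : HopfData H) :
    LinearMap.mul' R H ∘ₗ D.antipode.toLinearMap.rTensor H ∘ₗ D.comul.toLinearMap =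
      (Algebra.linearMap R H) ∘ₗ D.counit.toLinearMap := by
  apply LinearMap.ext
  intro h
  apply Subtype.ext
  funext x
  have h1 := AH2_mul_rTensor D (D.comul h) x
  rw [D.mu2_comul] at h1
  refine h1.trans ?_
  show (h : G → K) (-x + x) = algebraMap R K (D.counit h)
  rw [neg_add_cancel, D.algebraMap_counit]

theorem HopfData.mul_antipode_lTensor (D : HopfData H) :
    LinearMap.mul' R H ∘ₗ D.antipode.toLinearMap.lTensor H ∘ₗ D.comul.toLinearMap =
      (Algebra.linearMap R H) ∘ₗ D.counit.toLinearMap := by
  apply LinearMap.ext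
  intro h
  apply Subtype.ext
  funext x
  have h1 := AH2_mul_lTensor D (D.comul h) x
  rw [D.mu2_comul] at h1
  refine h1.trans ?_
  show (h : G → K) (x + -x) = algebraMap R K (D.counit h)
  rw [add_neg_cancel, D.algebraMap_counit]

theorem HopfData.comm_comul (D : HopfData H) :
    (TensorProduct.comm R H H).toLinearMap ∘ₗ D.comul.toLinearMap = D.comul.toLinearMap := by
  apply LinearMap.ext
  intro h
  apply D.inj2
  funext ⟨x, y⟩
  have h1 := AH2_mu2_comm (D.comul h) x y
  rw [D.mu2_comul] at h1
  refine h1.trans ?_
  have h2 := D.mu2_comul h (x, y)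
  refine Eq.trans ?_ h2.symm
  show (h : G → K) (y + x) = (h : G → K) (x + y)
  rw [add_comm]

/-- the Hopf algebra structure -/
@[reducible] noncomputable def HopfData.hopf (D : HopfData H) : HopfAlgebra R H :=
  { D.bialgebra with
    antipode := D.antipode.toLinearMap
    mul_antipode_rTensor_comul := D.mul_antipode_rTensor
    mul_antipode_lTensor_comul := D.mul_antipode_lTensor }

theorem HopfData.isCocomm (D : HopfData H) :
    letI := D.hopf
    Coalgebra.IsCocomm R H :=
  letI := D.hopf
  ⟨D.comm_comul⟩

end Fermat.Agent.S19Lib
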