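import Fermat.Agent.S19.Alg.Defs

set_option autoImplicit false
set_option linter.unusedSectionVars false

open scoped TensorProduct

namespace Fermat.Agent.S19Lib

variable {R K G : Type} [CommRing R] [Field K] [Algebra R K] [AddCommGroup G]
variable {H : Subalgebra R (G → K)}

/-! ### (AH1) `Alg/HopfCo.lean` : coalgebra axioms -/

theorem AH1_mu3_assoc (s : H ⊗[R] H) (b : H) (x y z : G) :
    mu3 H (Algebra.TensorProduct.assoc R R R H H H (s ⊗ₜ[R] b)) (x, y, z)
      = mu2 H s (x, y) * (b : G → K) z := by
  induction s using TensorProduct.induction_on with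
  | zero => simp
  | tmul a c =>
    rw [Algebra.TensorProduct.assoc_tmul, mu3_tmul, mu2_tmul, mu2_tmul]
    ring
  | add s t hs ht =>
    rw [TensorProduct.add_tmul, map_add, map_add, map_add, Pi.add_apply, Pi.add_apply, hs, ht,
      add_mul]

theorem AH1_mu3_comul_left (D : HopfData H) (t : H ⊗[R] H) (x y z : G) :
    mu3 H (Algebra.TensorProduct.assoc R R R H H H
      (Algebra.TensorProduct.map D.comul (.id R H) t)) (x, y, z) = mu2 H t (x + y, z) := by
  induction t using TensorProduct.induction_on with
  | zero => simp
  | tmul a c =>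
    rw [Algebra.TensorProduct.map_tmul, AH1_mu3_assoc, D.mu2_comul, mu2_tmul]
    rfl
  | add s t hs ht =>
    rw [map_add, map_add, map_add, map_add, Pi.add_apply, Pi.add_apply, hs, ht]

theorem AH1_mu3_comul_right (D : HopfData H) (t : H ⊗[R] H) (x y z : G) :
    mu3 H (Algebra.TensorProduct.map (.id R H) D.comul t) (x, y, z) = mu2 H t (x, y + z) := by
  induction t using TensorProduct.induction_on with
  | zero => simp
  | tmul a c =>
    rw [Algebra.TensorProduct.map_tmul, mu3_tmul, D.mu2_comul, mu2_tmul]
    rfl
  | add s t hs ht =>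
    rw [map_add, map_add, map_add, Pi.add_apply, Pi.add_apply, hs, ht]

theorem HopfData.coassoc (D : HopfData H) :
    (Algebra.TensorProduct.assoc R R R H H H).toAlgHom.comp
      ((Algebra.TensorProduct.map D.comul (.id R H)).comp D.comul)
      = (Algebra.TensorProduct.map (.id R H) D.comul).comp D.comul := by
  apply AlgHom.ext
  intro h
  apply D.inj3
  funext ⟨x, y, z⟩
  have h1 := AH1_mu3_comul_left D (D.comul h) x y z
  have h2 := AH1_mu3_comul_right D (D.comul h) x y z
  rw [D.mu2_comul] at h1 h2
  refine h1.trans (Eq.trans ?_ h2.symm)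
  show (h : G → K) (x + y + z) = (h : G → K) (x + (y + z))
  rw [add_assoc]

theorem AH1_lid_counit (D : HopfData H) (t : H ⊗[R] H) (x : G) :
    (Algebra.TensorProduct.lid R H (Algebra.TensorProduct.map D.counit (.id R H) t) : G → K) x
      = mu2 H t (0, x) := by
  induction t using TensorProduct.induction_on with
  | zero => simp
  | tmul a c =>
    rw [Algebra.TensorProduct.map_tmul, Algebra.TensorProduct.lid_tmul, mu2_tmul,
      ← D.algebraMap_counit]
    show (D.counit a • (c : G → K)) x = _
    rw [Pi.smul_apply, Algebra.smul_def]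
  | add s t hs ht =>
    rw [map_add, map_add, map_add, Pi.add_apply, ← hs, ← ht]
    rfl

theorem AH1_rid_counit (D : HopfData H) (t : H ⊗[R] H) (x : G) :
    (Algebra.TensorProduct.rid R R H (Algebra.TensorProduct.map (.id R H) D.counit t) : G → K) x
      = mu2 H t (x, 0) := by
  induction t using TensorProduct.induction_on with
  | zero => simp
  | tmul a c =>
    rw [Algebra.TensorProduct.map_tmul, Algebra.TensorProduct.rid_tmul, mu2_tmul,
      ← D.algebraMap_counit]
    show (D.counit c • (a : G → K)) x = _
    rw [Pi.smul_apply, Algebra.smul_def, mul_comm]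
  | add s t hs ht =>
    rw [map_add, map_add, map_add, Pi.add_apply, ← hs, ← ht]
    rfl

theorem HopfData.rTensor (D : HopfData H) :
    (Algebra.TensorProduct.map D.counit (.id R H)).comp D.comul
      = (Algebra.TensorProduct.lid R H).symm := by
  apply AlgHom.ext
  intro h
  apply (Algebra.TensorProduct.lid R H).injective
  have h2 : Algebra.TensorProduct.lid R H
      (((Algebra.TensorProduct.lid R H).symm : H →ₐ[R] R ⊗[R] H) h) = h :=
    (Algebra.TensorProduct.lid R H).apply_symm_apply h
  rw [h2]
  apply Subtype.ext
  funext x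
  have h1 := AH1_lid_counit D (D.comul h) x
  rw [D.mu2_comul] at h1
  refine h1.trans ?_
  show (h : G → K) (0 + x) = _
  rw [zero_add]

theorem HopfData.lTensor (D : HopfData H) :
    (Algebra.TensorProduct.map (.id R H) D.counit).comp D.comul
      = (Algebra.TensorProduct.rid R R H).symm := by
  apply AlgHom.ext
  intro h
  apply (Algebra.TensorProduct.rid R R H).injective
  have h2 : Algebra.TensorProduct.rid R R H
      (((Algebra.TensorProduct.rid R R H).symm : H →ₐ[R] H ⊗[R] R) h) = h :=
    (Algebra.TensorProduct.rid R R H).apply_symm_apply h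
  rw [h2]
  apply Subtype.ext
  funext x
  have h1 := AH1_rid_counit D (D.comul h) x
  rw [D.mu2_comul] at h1
  refine h1.trans ?_
  show (h : G → K) (x + 0) = _
  rw [add_zero]

/-- the bialgebra structure -/
@[reducible] noncomputable def HopfData.bialgebra (D : HopfData H) : Bialgebra R H :=
  Bialgebra.ofAlgHom D.comul D.counit D.coassoc D.rTensor D.lTensor

end Fermat.Agent.S19Lib
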