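import Fermat.Agent.S19.Alg.Defs

set_option autoImplicit false
set_option linter.unusedSectionVars false

open scoped TensorProduct

namespace Fermat.Agent.S19Lib

variable {R K G : Type} [CommRing R] [Field K] [Algebra R K] [AddCommGroup G]
variable (H : Subalgebra R (G → K))

/-! ### (SPAN) `Alg/Span.lean` -/

/-- a point separating `K`-subalgebra of `X → K` (`X` finite) is everything -/
theorem subalgebra_eq_top_of_sep {X : Type} [Finite X] (S : Subalgebra K (X → K))
    (hsep : ∀ x y : X, x ≠ y → ∃ h ∈ S, h x ≠ h y) : S = ⊤ := by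
  classical
  have := Fintype.ofFinite X
  have hg : ∀ x y : X, x ≠ y → ∃ g ∈ S, g x = 1 ∧ g y = 0 := by
    intro x y hxy
    obtain ⟨h, hS, hne⟩ := hsep x y hxy
    refine ⟨(h - algebraMap K (X → K) (h y)) * algebraMap K (X → K) ((h x - h y)⁻¹), ?_, ?_, ?_⟩
    · exact S.mul_mem (S.sub_mem hS (S.algebraMap_mem _)) (S.algebraMap_mem _)
    · simp only [Pi.mul_apply, Pi.sub_apply, Pi.algebraMap_apply, Algebra.algebraMap_self,
        RingHom.id_apply]
      exact mul_inv_cancel₀ (sub_ne_zero.mpr hne)
    · simp
  choose! g hgS hg1 hg0 using hg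
  have hδ : ∀ x : X, (Pi.single x 1 : X → K) ∈ S := by
    intro x
    have h1 : (Pi.single x 1 : X → K) = ∏ y ∈ Finset.univ.erase x, g x y := by
      funext z
      rw [Finset.prod_apply]
      by_cases hz : z = x
      · subst hz
        rw [Pi.single_eq_same]
        symm
        apply Finset.prod_eq_one
        intro y hy
        exact hg1 z y (Finset.ne_of_mem_erase hy).symm
      · rw [Pi.single_eq_of_ne hz]
        symm
        apply Finset.prod_eq_zero (i := z) (Finset.mem_erase.mpr ⟨hz, Finset.mem_univ _⟩)
        exact hg0 x z (Ne.symm hz)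
    rw [h1]
    apply Subalgebra.prod_mem
    intro y hy
    exact hgS x y (Finset.ne_of_mem_erase hy).symm
  rw [eq_top_iff]
  intro f _
  have hf : f = ∑ x, f x • (Pi.single x 1 : X → K) := by
    funext z
    rw [Finset.sum_apply]
    simp [Pi.single_apply]
  rw [hf]
  apply Subalgebra.sum_mem
  intro x _
  exact S.smul_mem (hδ x) _

theorem span_eq_top_of_sep [Finite G]
    (hsep : ∀ x y : G, (∀ h ∈ H, h x = h y) → x = y) :
    Submodule.span K (H : Set (G → K)) = ⊤ := by
  have h1 : Subalgebra.toSubmodule (Algebra.adjoin K (H : Set (G → K)))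
      = Submodule.span K (H : Set (G → K)) := by
    rw [Algebra.adjoin_eq_span]
    congr 1
    exact congrArg _ (Submonoid.closure_eq H.toSubmonoid)
  rw [← h1]
  have h2 : Algebra.adjoin K (H : Set (G → K)) = ⊤ := by
    apply subalgebra_eq_top_of_sep
    intro x y hxy
    by_contra hcon
    push Not at hcon
    apply hxy
    apply hsep
    intro h hh
    exact hcon h (Algebra.subset_adjoin hh)
  rw [h2]
  simp

end Fermat.Agent.S19Lib
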