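import Fermat.Agent.S19.Alg.Act
import Fermat.Agent.S19.Alg.Span

set_option autoImplicit false
set_option linter.unusedSectionVars false

open scoped TensorProduct

namespace Fermat.Agent.S19Lib

/-- applying `σ` to the coefficients of a relation between equivariant functions -/
theorem IND_sum_map_smul {X ι : Type} [Fintype ι] (a : GalQ → X → X)
    (ha : ∀ σ, Function.Surjective (a σ))
    (v : ι → X → QB) (hv : ∀ i σ x, v i (a σ x) = σ (v i x)) (f : X → QB)
    (hf : ∀ σ x, f (a σ x) = σ (f x)) (c : ι → QB)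
    (hc : ∑ i, c i • v i = f) (σ : GalQ) : ∑ i, σ (c i) • v i = f := by
  funext y
  obtain ⟨x, rfl⟩ := ha σ y
  have h1 := congrFun hc x
  rw [hf, ← h1]
  simp only [Finset.sum_apply, Pi.smul_apply, smul_eq_mul, map_sum, map_mul, hv]

/-- Galois descent for relations between equivariant functions -/
theorem IND_exists_rat_relation {X ι : Type} [Fintype ι] (a : GalQ → X → X)
    (ha : ∀ σ, Function.Surjective (a σ))
    (v : ι → X → QB) (hv : ∀ i σ x, v i (a σ x) = σ (v i x)) :
    ∀ (k : ℕ) (c : ι → QB), (Finset.univ.filter (fun i => c i ≠ 0)).card ≤ k → c ≠ 0 →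
      (∑ i, c i • v i = 0) →
      ∃ q : ι → ℚ, q ≠ 0 ∧ ∑ i, (algebraMap ℚ QB (q i)) • v i = 0 := by
  classical
  intro k
  induction k with
  | zero =>
    intro c hk hc _
    exfalso
    apply hc
    funext i
    by_contra hi
    have : i ∈ Finset.univ.filter (fun i => c i ≠ 0) :=
      Finset.mem_filter.mpr ⟨Finset.mem_univ _, hi⟩
    rw [Finset.card_eq_zero.mp (Nat.le_zero.mp hk)] at this
    simp at this
  | succ k ih =>
    intro c hk hc hrel
    obtain ⟨i0, hi0⟩ : ∃ i, c i ≠ 0 := by
      by_contra hcon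
      push Not at hcon
      exact hc (funext hcon)
    set d : ι → QB := fun i => (c i0)⁻¹ * c i with hd
    have hd0 : d i0 = 1 := inv_mul_cancel₀ hi0
    have hdrel : ∑ i, d i • v i = 0 := by
      have : ∑ i, d i • v i = (c i0)⁻¹ • ∑ i, c i • v i := by
        rw [Finset.smul_sum]
        apply Finset.sum_congr rfl
        intro i _
        rw [smul_smul]
      rw [this, hrel, smul_zero]
    by_cases hfix : ∀ i (σ : GalQ), σ (d i) = d i
    · have hq : ∀ i, ∃ q : ℚ, algebraMap ℚ QB q = d i := fun i =>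
        mem_range_of_galois_fixed (d i) (hfix i)
      choose q hq using hq
      refine ⟨q, ?_, ?_⟩
      · intro h0
        have := hq i0
        rw [h0, hd0] at this
        simp at this
      · simp only [hq]
        exact hdrel
    · push Not at hfix
      obtain ⟨j, σ, hj⟩ := hfix
      have hz : ∀ (τ : GalQ) (x : X), (0 : X → QB) (a τ x) = τ ((0 : X → QB) x) := by
        intro τ x; simp
      have h1 := IND_sum_map_smul a ha v hv 0 hz d hdrel σ
      apply ih (fun i => σ (d i) - d i)
      · have hsub : Finset.univ.filter (fun i => σ (d i) - d i ≠ 0)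
            ⊆ (Finset.univ.filter (fun i => c i ≠ 0)).erase i0 := by
          intro i hi
          rw [Finset.mem_filter] at hi
          rw [Finset.mem_erase, Finset.mem_filter]
          refine ⟨?_, Finset.mem_univ _, ?_⟩
          · rintro rfl
            apply hi.2
            rw [hd0, map_one, sub_self]
          · intro hci
            apply hi.2
            simp [hd, hci]
        have h2 := Finset.card_le_card hsub
        rw [Finset.card_erase_of_mem (by simp [hi0])] at h2
        omega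
      · intro h0
        apply hj
        have := congrFun h0 j
        exact sub_eq_zero.mp this
      · simp only [sub_smul, Finset.sum_sub_distrib, h1, hdrel, sub_self]

/-- common denominators -/
theorem IND_exists_nat_mul_mem (ℓ : ℕ) {ι : Type} [Fintype ι] (q : ι → ℚ) :
    ∃ n : ℕ, n ≠ 0 ∧ ∀ i, (n : ℚ) * q i ∈ GaloisRep.ratLocalizedAt ℓ := by
  classical
  choose n hn0 hn using fun i => RL_exists_nat_mul_mem ℓ (q i)
  refine ⟨∏ i, n i, Finset.prod_ne_zero_iff.mpr (fun i _ => hn0 i), ?_⟩
  intro i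
  rw [← Finset.mul_prod_erase Finset.univ n (Finset.mem_univ i)]
  have : (((n i * ∏ x ∈ Finset.univ.erase i, n x : ℕ)) : ℚ) * q i
      = ((∏ x ∈ Finset.univ.erase i, n x : ℕ) : ℚ) * ((n i : ℚ) * q i) := by
    push_cast; ring
  rw [this]
  exact (GaloisRep.ratLocalizedAt ℓ).mul_mem (natCast_mem _ _) (hn i)

variable {ℓ : ℕ} [Fact ℓ.Prime] {G : Type} [AddCommGroup G] [Finite G] {act : GalQ → G → G}
  {H : Subalgebra (RL ℓ) (G → QB)}

/-! ### (IND) `Alg/Ind.lean` -/

theorem IsOrd.indK (h : IsOrd ℓ G act H) : IndK H := by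
  intro n v hv
  rw [Fintype.linearIndependent_iff] at hv ⊢
  intro c hc
  by_contra hcon
  have hc0 : c ≠ 0 := by
    intro h0
    apply hcon
    intro i
    rw [h0]; rfl
  obtain ⟨q, hq0, hq⟩ := IND_exists_rat_relation act (fun σ => (h.act_bijective σ).2)
    (fun i => (v i : G → QB)) (fun i σ x => h.equiv _ (v i).2 σ x) _ c le_rfl hc0 hc
  obtain ⟨N, hN0, hN⟩ := IND_exists_nat_mul_mem ℓ q
  have h1 := hv (fun i => ⟨_, hN i⟩) (by
    apply Subtype.ext
    have h2 : ((∑ i, (⟨_, hN i⟩ : RL ℓ) • v i : H) : G → QB)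
        = ∑ i, (⟨_, hN i⟩ : RL ℓ) • (v i : G → QB) := by
      simp
    rw [h2]
    have h3 : ∀ i, (⟨_, hN i⟩ : RL ℓ) • (v i : G → QB)
        = (N : QB) • (algebraMap ℚ QB (q i) • (v i : G → QB)) := by
      intro i
      rw [smul_smul, ← algebraMap_smul QB (⟨_, hN i⟩ : RL ℓ) (v i : G → QB)]
      congr 1
      show algebraMap ℚ QB ((N : ℚ) * q i) = _
      simp
    simp only [h3]
    rw [← Finset.smul_sum, hq, smul_zero]
    rfl)
  apply hq0
  funext i
  have h4 := congrArg Subtype.val (h1 i)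
  have h5 : (N : ℚ) * q i = 0 := h4
  have hN' : (N : ℚ) ≠ 0 := by exact_mod_cast hN0
  exact (mul_eq_zero.mp h5).resolve_left hN'

/-- a basis of `H` spans all functions over `K` -/
theorem IsOrd.span_basis (h : IsOrd ℓ G act H) {n : ℕ} (b : Module.Basis (Fin n) (RL ℓ) H) :
    Submodule.span QB (Set.range (fun i => (b i : G → QB))) = ⊤ := by
  rw [eq_top_iff, ← span_eq_top_of_sep H h.sep, Submodule.span_le]
  intro f hf
  have h1 := b.sum_repr ⟨f, hf⟩
  have h2 : f = ∑ i, (b.repr ⟨f, hf⟩ i) • (b i : G → QB) := by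
    have h3 : ((∑ i, (b.repr ⟨f, hf⟩ i) • b i : H) : G → QB) = f := congrArg Subtype.val h1
    refine h3.symm.trans ?_
    rw [AddSubmonoidClass.coe_finsetSum]
    rfl
  rw [h2]
  apply Submodule.sum_mem
  intro i _
  rw [← algebraMap_smul QB (b.repr ⟨f, hf⟩ i) (b i : G → QB)]
  exact Submodule.smul_mem _ _ (Submodule.subset_span ⟨i, rfl⟩)

/-- equivariant functions lie in `ℚ H` -/
theorem IsOrd.exists_nat_smul_mem (h : IsOrd ℓ G act H) (f : G → QB)
    (hf : ∀ (σ : GalQ) (x : G), f (act σ x) = σ (f x)) :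
    ∃ n : ℕ, n ≠ 0 ∧ (n : QB) • f ∈ H := by
  have := h.free
  have := h.finite
  let b := Module.finBasis (RL ℓ) H
  have hind := h.indK _ b b.linearIndependent
  have hspan := h.span_basis b
  have hfm : f ∈ Submodule.span QB (Set.range (fun i => (b i : G → QB))) := by
    rw [hspan]; trivial
  obtain ⟨c, hc⟩ := (Submodule.mem_span_range_iff_exists_fun QB).mp hfm
  have hfix : ∀ i (σ : GalQ), σ (c i) = c i := by
    intro i σ
    have h1 := IND_sum_map_smul act (fun σ => (h.act_bijective σ).2)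
      (fun i => (b i : G → QB)) (fun i σ x => h.equiv _ (b i).2 σ x) f hf c hc σ
    have h2 : ∑ i, (σ (c i) - c i) • (b i : G → QB) = 0 := by
      simp only [sub_smul, Finset.sum_sub_distrib, h1, hc, sub_self]
    have h3 := (Fintype.linearIndependent_iff.mp hind) _ h2 i
    exact sub_eq_zero.mp h3
  have hq : ∀ i, ∃ q : ℚ, algebraMap ℚ QB q = c i := fun i =>
    mem_range_of_galois_fixed (c i) (hfix i)
  choose q hq using hq
  obtain ⟨N, hN0, hN⟩ := IND_exists_nat_mul_mem ℓ q
  refine ⟨N, hN0, ?_⟩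
  have h3 : ∀ i, (⟨_, hN i⟩ : RL ℓ) • (b i : G → QB)
      = (N : QB) • (c i • (b i : G → QB)) := by
    intro i
    rw [smul_smul, ← algebraMap_smul QB (⟨_, hN i⟩ : RL ℓ) (b i : G → QB), ← hq]
    congr 1
    show algebraMap ℚ QB ((N : ℚ) * q i) = _
    simp
  rw [← hc, Finset.smul_sum]
  apply Subalgebra.sum_mem
  intro i _
  rw [← h3]
  exact H.smul_mem (b i).2 _

end Fermat.Agent.S19Lib
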