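import Fermat.Agent.S19.Alg.Defs

set_option autoImplicit false
set_option linter.unusedSectionVars false

open scoped TensorProduct

namespace Fermat.Agent.S19Lib

/-! ## (RL) `Alg/RL.lean` : the ring `ℤ_(ℓ)` -/

theorem RL_mem_iff (ℓ : ℕ) (q : ℚ) : q ∈ GaloisRep.ratLocalizedAt ℓ ↔ q.den.Coprime ℓ := Iff.rfl

theorem RL_int_div_mem (ℓ : ℕ) (c : ℤ) (d : ℕ) (hd : d.Coprime ℓ) :
    (c : ℚ) / d ∈ GaloisRep.ratLocalizedAt ℓ := by
  show ((c : ℚ) / d).den.Coprime ℓ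
  have h : ((c : ℚ) / d).den ∣ d := by
    have := Rat.den_dvd c d
    rw [Rat.divInt_eq_div] at this
    exact_mod_cast this
  exact Nat.Coprime.coprime_dvd_left h hd

theorem RL_isUnit_of_not_dvd (ℓ : ℕ) [Fact ℓ.Prime] {x : RL ℓ} (hnum : ¬ (ℓ : ℤ) ∣ (x : ℚ).num) :
    IsUnit x := by
  have hx0 : (x : ℚ) ≠ 0 := by
    intro h0
    apply hnum
    rw [h0]
    simp
  have hmem : (x : ℚ)⁻¹ ∈ GaloisRep.ratLocalizedAt ℓ := by
    show ((x : ℚ)⁻¹).den.Coprime ℓ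
    rw [Rat.den_inv_of_ne_zero hx0]
    apply Nat.Coprime.symm
    rw [Nat.Prime.coprime_iff_not_dvd Fact.out]
    rwa [← Int.natCast_dvd]
  exact IsUnit.of_mul_eq_one ⟨_, hmem⟩ (Subtype.ext (by simp [hx0]))

theorem RL_not_isUnit_l (ℓ : ℕ) [Fact ℓ.Prime] : ¬ IsUnit (ℓ : RL ℓ) := by
  intro hu
  obtain ⟨y, hy⟩ := hu.exists_right_inv
  have hℓ : (ℓ : ℚ) ≠ 0 := by exact_mod_cast (Fact.out : ℓ.Prime).ne_zero
  have h1 : (ℓ : ℚ) * (y : ℚ) = 1 := by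
    have := congrArg (Subtype.val) hy
    simpa using this
  have h2 : (y : ℚ) = (ℓ : ℚ)⁻¹ := by
    field_simp
    linarith
  have h3 : (y : ℚ).den.Coprime ℓ := y.2
  rw [h2] at h3
  have h4 : ((ℓ : ℚ)⁻¹).den = ℓ := by
    rw [Rat.den_inv_of_ne_zero hℓ]
    simp
  rw [h4, Nat.coprime_self] at h3
  exact (Fact.out : ℓ.Prime).one_lt.ne' h3

theorem RL_exists_of_dvd (ℓ : ℕ) [Fact ℓ.Prime] {x : RL ℓ} (hnum : (ℓ : ℤ) ∣ (x : ℚ).num) :
    ∃ y : RL ℓ, x = (ℓ : RL ℓ) * y := by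
  obtain ⟨c, hc⟩ := hnum
  refine ⟨⟨_, RL_int_div_mem ℓ c (x : ℚ).den x.2⟩, ?_⟩
  apply Subtype.ext
  have hxq : (x : ℚ) = (x : ℚ).num / (x : ℚ).den := (Rat.num_div_den _).symm
  push_cast
  conv_lhs => rw [hxq, hc]
  push_cast
  ring

theorem RL_l_ne_zero (ℓ : ℕ) [Fact ℓ.Prime] : (ℓ : RL ℓ) ≠ 0 := by
  intro h
  have := congrArg Subtype.val h
  have hℓ : (ℓ : ℚ) ≠ 0 := by exact_mod_cast (Fact.out : ℓ.Prime).ne_zero
  apply hℓ
  simpa using this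

theorem RL_irreducible_l (ℓ : ℕ) [Fact ℓ.Prime] : Irreducible (ℓ : RL ℓ) := by
  refine ⟨RL_not_isUnit_l ℓ, ?_⟩
  intro a b hab
  by_contra hcon
  push Not at hcon
  obtain ⟨ha, hb⟩ := hcon
  have ha' : (ℓ : ℤ) ∣ (a : ℚ).num := by
    by_contra h
    exact ha (RL_isUnit_of_not_dvd ℓ h)
  have hb' : (ℓ : ℤ) ∣ (b : ℚ).num := by
    by_contra h
    exact hb (RL_isUnit_of_not_dvd ℓ h)
  obtain ⟨a', rfl⟩ := RL_exists_of_dvd ℓ ha'
  obtain ⟨b', rfl⟩ := RL_exists_of_dvd ℓ hb'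
  apply RL_not_isUnit_l ℓ
  apply IsUnit.of_mul_eq_one (a' * b')
  have h0 := RL_l_ne_zero ℓ
  apply mul_left_cancel₀ h0
  rw [mul_one]
  conv_rhs => rw [hab]
  ring

theorem RL_exists_pow_mul_unit (ℓ : ℕ) [Fact ℓ.Prime] {x : RL ℓ} (hx : x ≠ 0) :
    ∃ n : ℕ, Associated ((ℓ : RL ℓ) ^ n) x := by
  have hx0 : (x : ℚ) ≠ 0 := fun h => hx (Subtype.ext h)
  have hnum : (x : ℚ).num ≠ 0 := Rat.num_ne_zero.mpr hx0
  have hfin : FiniteMultiplicity (ℓ : ℤ) (x : ℚ).num := by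
    rw [Int.finiteMultiplicity_iff]
    exact ⟨by simpa using (Fact.out : ℓ.Prime).one_lt.ne', hnum⟩
  obtain ⟨c, hc, hdvd⟩ := hfin.exists_eq_pow_mul_and_not_dvd
  have hden : ((x : ℚ).den : ℚ) ≠ 0 := by exact_mod_cast (x : ℚ).den_ne_zero
  have hmem : (c : ℚ) / (x : ℚ).den ∈ GaloisRep.ratLocalizedAt ℓ :=
    RL_int_div_mem ℓ c _ x.2
  have hxu : x = (ℓ : RL ℓ) ^ (multiplicity (ℓ : ℤ) (x : ℚ).num) * ⟨_, hmem⟩ := by
    apply Subtype.ext
    have hxq : (x : ℚ) = (x : ℚ).num / (x : ℚ).den := (Rat.num_div_den _).symm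
    push_cast
    conv_lhs => rw [hxq, hc]
    push_cast
    ring
  have hu : IsUnit (⟨_, hmem⟩ : RL ℓ) := by
    apply RL_isUnit_of_not_dvd
    intro h0
    apply hdvd
    -- `c = num * (den x / den)`
    have h1 : ((c : ℚ) / (x : ℚ).den) * (x : ℚ).den = c := by field_simp
    have h2 : (((c : ℚ) / (x : ℚ).den).num : ℚ) * (x : ℚ).den
        = c * ((c : ℚ) / (x : ℚ).den).den := by
      have h3 := Rat.num_div_den ((c : ℚ) / (x : ℚ).den)
      have h4 : ((((c : ℚ) / (x : ℚ).den).den : ℕ) : ℚ) ≠ 0 := by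
        exact_mod_cast ((c : ℚ) / (x : ℚ).den).den_ne_zero
      rw [div_eq_iff h4] at h3
      rw [h3]
      field_simp
    have h5 : ((c : ℚ) / (x : ℚ).den).num * ((x : ℚ).den : ℤ)
        = c * (((c : ℚ) / (x : ℚ).den).den : ℤ) := by exact_mod_cast h2
    have h6 : (ℓ : ℤ) ∣ c * (((c : ℚ) / (x : ℚ).den).den : ℤ) := by
      rw [← h5]; exact Dvd.dvd.mul_right h0 _
    have hp : Prime (ℓ : ℤ) := Nat.prime_iff_prime_int.mp Fact.out
    rcases hp.dvd_or_dvd h6 with h7 | h7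
    · exact h7
    · exfalso
      have h8 : ℓ ∣ ((c : ℚ) / (x : ℚ).den).den := by exact_mod_cast h7
      have h9 : ((c : ℚ) / (x : ℚ).den).den.Coprime ℓ := hmem
      have := Nat.Coprime.eq_one_of_dvd h9.symm h8
      exact (Fact.out : ℓ.Prime).one_lt.ne' this
  obtain ⟨u, hu⟩ := hu
  exact ⟨multiplicity (ℓ : ℤ) (x : ℚ).num, u, by rw [hu]; exact hxu.symm⟩

theorem RL_isDiscreteValuationRing (ℓ : ℕ) [Fact ℓ.Prime] : IsDiscreteValuationRing (RL ℓ) :=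
  IsDiscreteValuationRing.ofHasUnitMulPowIrreducibleFactorization
    ⟨(ℓ : RL ℓ), RL_irreducible_l ℓ, fun hx => RL_exists_pow_mul_unit ℓ hx⟩

theorem RL_isPrincipalIdealRing (ℓ : ℕ) [Fact ℓ.Prime] : IsPrincipalIdealRing (RL ℓ) := by
  have := RL_isDiscreteValuationRing ℓ
  infer_instance

theorem RL_algebraMap_injective (ℓ : ℕ) : Function.Injective (algebraMap (RL ℓ) QB) := by
  intro x y hxy
  have h : algebraMap ℚ QB (x : ℚ) = algebraMap ℚ QB (y : ℚ) := hxy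
  exact Subtype.ext ((algebraMap ℚ QB).injective h)

theorem RL_isFractionRing (ℓ : ℕ) : IsFractionRing (RL ℓ) ℚ := by
  apply IsFractionRing.of_field
  intro z
  refine ⟨⟨(z.num : ℚ), ?_⟩, ⟨(z.den : ℚ), ?_⟩, ?_⟩
  · show ((z.num : ℤ) : ℚ).den.Coprime ℓ
    simp
  · show ((z.den : ℕ) : ℚ).den.Coprime ℓ
    simp
  · exact (Rat.num_div_den z).symm

/-- a rational number which is integral over `ℤ_(ℓ)` lies in `ℤ_(ℓ)` -/
theorem RL_mem_of_isIntegral (ℓ : ℕ) [Fact ℓ.Prime] (q : ℚ)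
    (h : IsIntegral (RL ℓ) (algebraMap ℚ QB q)) : q ∈ GaloisRep.ratLocalizedAt ℓ := by
  have := RL_isDiscreteValuationRing ℓ
  have := RL_isFractionRing ℓ
  have h1 : IsIntegral (RL ℓ) q :=
    (isIntegral_algebraMap_iff (algebraMap ℚ QB).injective).mp h
  obtain ⟨y, hy⟩ := IsIntegrallyClosed.isIntegral_iff.mp h1
  rw [← hy]
  exact y.2

/-- `ℚ ∩ A = ℤ_(ℓ)` -/
theorem RL_mem_of_mem_valuationSubring (ℓ : ℕ) [Fact ℓ.Prime] (A : ValuationSubring QB)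
    (hA : ((ℓ : QB))⁻¹ ∉ A) (q : ℚ) (h : algebraMap ℚ QB q ∈ A) :
    q ∈ GaloisRep.ratLocalizedAt ℓ := by
  show q.den.Coprime ℓ
  by_contra hcon
  have hℓ : ℓ.Prime := Fact.out
  have hd : ℓ ∣ q.den := by
    by_contra h1
    exact hcon ((Nat.Prime.coprime_iff_not_dvd hℓ).mpr h1).symm
  obtain ⟨b, hb⟩ := hd
  have hcop : IsCoprime q.num (ℓ : ℤ) := by
    have h1 : Nat.Coprime q.num.natAbs q.den := q.reduced
    have h2 : Nat.Coprime q.num.natAbs ℓ := Nat.Coprime.coprime_dvd_right ⟨b, hb⟩ h1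
    rw [Int.isCoprime_iff_gcd_eq_one]
    simpa [Int.gcd] using h2
  obtain ⟨u, v, huv⟩ := hcop
  apply hA
  have hℓ0 : (ℓ : ℚ) ≠ 0 := by exact_mod_cast hℓ.ne_zero
  have hb0 : (b : ℚ) ≠ 0 := by
    intro h0
    have : b = 0 := by exact_mod_cast h0
    rw [this, mul_zero] at hb
    exact q.den_ne_zero hb
  have key : ((ℓ : ℚ))⁻¹ = (u : ℚ) * b * q + v := by
    have hq : q = q.num / q.den := (Rat.num_div_den q).symm
    have huv' : (u : ℚ) * q.num + v * ℓ = 1 := by exact_mod_cast huv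
    rw [hq, hb]
    push_cast
    field_simp
    linarith
  have key2 : ((ℓ : QB))⁻¹ = (u : QB) * b * algebraMap ℚ QB q + v := by
    have := congrArg (algebraMap ℚ QB) key
    simpa using this
  rw [key2]
  apply A.add_mem
  · apply A.mul_mem _ _ _ h
    apply A.mul_mem
    · exact intCast_mem A u
    · exact natCast_mem A b
  · exact intCast_mem A v

/-- clearing denominators -/
theorem RL_exists_nat_mul_mem (ℓ : ℕ) (q : ℚ) :
    ∃ n : ℕ, n ≠ 0 ∧ (n : ℚ) * q ∈ GaloisRep.ratLocalizedAt ℓ := by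
  refine ⟨q.den, q.den_ne_zero, ?_⟩
  have : (q.den : ℚ) * q = (q.num : ℤ) := by
    rw [mul_comm]; exact Rat.mul_den_eq_num q
  rw [this]
  show ((q.num : ℤ) : ℚ).den.Coprime ℓ
  simp

theorem QB_isAlgebraic : Algebra.IsAlgebraic ℚ QB :=
  AlgebraicClosure.isAlgebraic ℚ

theorem QB_isAlgClosure : IsAlgClosure ℚ QB :=
  ⟨inferInstance, QB_isAlgebraic⟩

theorem QB_isGalois : IsGalois ℚ QB := by
  have := QB_isAlgClosure
  exact IsAlgClosure.isGalois ℚ QB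

/-- the fixed field of `G_ℚ` is `ℚ` -/
theorem mem_range_of_galois_fixed (x : QB) (h : ∀ σ : GalQ, σ x = x) :
    x ∈ (algebraMap ℚ QB).range := by
  have := QB_isGalois
  have := (InfiniteGalois.mem_range_algebraMap_iff_fixed (k := ℚ) (K := QB) x).mpr h
  exact this

end Fermat.Agent.S19Lib
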